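import Mathlib

/-!
# The field automorphisms of `ℂ` fix exactly the rational numbers
-/

set_option autoImplicit false

namespace FA.Period

open MvPolynomial

/-- An automorphism of the polynomial ring on a transcendence basis extends to `ℂ`. -/
theorem exists_ringEquiv_extending {K : Type*} [Field K] [Algebra K ℂ] {ι : Type*} (v : ι → ℂ)
    (hv : IsTranscendenceBasis K v) (e : MvPolynomial ι K ≃+* MvPolynomial ι K) :
    ∃ σ : ℂ ≃+* ℂ, ∀ p, σ (aeval v p) = aeval v (e p) := by
  have := IsAlgClosed.isAlgClosure_of_transcendence_basis v hv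
  let e' : Algebra.adjoin K (Set.range v) ≃+* Algebra.adjoin K (Set.range v) :=
    hv.1.aevalEquiv.symm.toRingEquiv.trans (e.trans hv.1.aevalEquiv.toRingEquiv)
  refine ⟨IsAlgClosure.equivOfEquiv ℂ ℂ e', fun p => ?_⟩
  have h := IsAlgClosure.equivOfEquiv_algebraMap ℂ ℂ e' (hv.1.aevalEquiv p)
  have h1 : ∀ q, algebraMap (Algebra.adjoin K (Set.range v)) ℂ (hv.1.aevalEquiv q) = aeval v q :=
    fun q => AlgebraicIndependent.algebraMap_aevalEquiv hv.1 q
  rw [h1] at h
  rw [h, show e' (hv.1.aevalEquiv p) = hv.1.aevalEquiv (e p) by simp [e'], h1]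

/-- Translation of all variables by one. -/
noncomputable def shiftVars (ι K : Type*) [CommRing K] : MvPolynomial ι K ≃ₐ[K] MvPolynomial ι K :=
  AlgEquiv.ofAlgHom (aeval fun i => X i + 1) (aeval fun i => X i - 1)
    (by ext i; simp) (by ext i; simp)

/-- A complex number fixed by all field automorphisms is rational. -/
theorem exists_rat_of_forall_ringEquiv_fixed (z : ℂ) (h : ∀ σ : ℂ ≃+* ℂ, σ z = z) :
    ∃ r : ℚ, z = r := by
  let K := algebraicClosure ℚ ℂ
  have : IsAlgClosure ℚ K := algebraicClosure.isAlgClosure ℚ ℂ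
  have : IsGalois ℚ K := IsAlgClosure.isGalois ℚ K
  have : Algebra.IsAlgebraic ℚ K := algebraicClosure.isAlgebraic ℚ ℂ
  by_cases hz : IsAlgebraic ℚ z
  · have hzK : z ∈ K := (mem_algebraicClosure_iff' ..).mpr hz.isIntegral
    set x : K := ⟨z, hzK⟩
    by_contra hne
    obtain ⟨σ₀, hσ₀⟩ : ∃ σ₀ : K ≃ₐ[ℚ] K, σ₀ x ≠ x := by
      by_contra! hfix
      have hx : x ∈ (⊥ : IntermediateField ℚ K) := (InfiniteGalois.mem_bot_iff_fixed x).mpr hfix
      obtain ⟨r, hr⟩ := IntermediateField.mem_bot.mp hx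
      exact hne ⟨r, by simpa [x] using (congrArg Subtype.val hr).symm⟩
    obtain ⟨ι, v, hv⟩ := exists_isTranscendenceBasis' K ℂ
    obtain ⟨σ, hσ⟩ := exists_ringEquiv_extending v hv
      (MvPolynomial.mapEquiv ι σ₀.toRingEquiv)
    have h1 := hσ (C x)
    rw [show MvPolynomial.mapEquiv ι σ₀.toRingEquiv (C x) = C (σ₀ x) by simp, aeval_C, aeval_C]
      at h1
    exact hσ₀ (Subtype.ext (h1.symm.trans (h σ)))
  · have hzK : Transcendental K z := fun halg => hz <| by
      exact halg.restrictScalars ℚ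
    have hs : AlgebraicIndepOn K id ({z} : Set ℂ) := by
      have : Unique ({z} : Set ℂ) := Set.uniqueSingleton z
      refine algebraicIndependent_unique_type_iff.mpr ?_
      rw [show (default : ({z} : Set ℂ)) = ⟨z, rfl⟩ from Subsingleton.elim _ _]
      exact hzK
    obtain ⟨t, hzt, ht⟩ := exists_isTranscendenceBasis_superset hs
    obtain ⟨σ, hσ⟩ := exists_ringEquiv_extending _ ht (shiftVars t K).toRingEquiv
    have hzt' : z ∈ t := hzt rfl
    have h1 := hσ (X ⟨z, hzt'⟩)
    simp [shiftVars, h σ] at h1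

end FA.Period
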