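import Fermat.Agent.Period.Galois

/-!
# Cusp forms with rational `q`-expansion have bounded denominators
-/

set_option autoImplicit false

namespace FA.Period

open UpperHalfPlane
open scoped Polynomial

/-- An element of the fraction field which is integral over an integrally closed domain, in
homogeneous form: if `y a = b` and `y` is a root of a monic polynomial then `a ∣ b`. -/
theorem exists_mul_eq_of_homogeneous {A : Type*} [CommRing A] [IsDomain A] [IsIntegrallyClosed A]
    {a b : A} (ha : a ≠ 0) {n : ℕ} {c : ℕ → A} (h0 : c 0 = 1)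
    (h : ∑ j ∈ Finset.range (n + 1), c j * b ^ (n - j) * a ^ j = 0) : ∃ d, d * a = b := by
  set K := FractionRing A
  set φ := algebraMap A K
  have hinj : Function.Injective φ := IsFractionRing.injective A K
  have ha' : φ a ≠ 0 := fun h0 => ha (hinj (by rw [h0, map_zero]))
  set p : A[X] := Polynomial.X ^ n +
    ∑ j ∈ Finset.range n, Polynomial.C (c (j + 1)) * Polynomial.X ^ (n - (j + 1)) with hp
  have hmonic : p.Monic := by
    refine Polynomial.monic_X_pow_add ((Polynomial.degree_sum_le _ _).trans_lt ?_)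
    refine (Finset.sup_lt_iff (WithBot.bot_lt_coe _)).mpr fun j hj => ?_
    rw [Finset.mem_range] at hj
    exact (Polynomial.degree_C_mul_X_pow_le _ _).trans_lt (by exact_mod_cast (by omega : n - (j + 1) < n))
  have hint : IsIntegral A (φ b / φ a) := by
    refine ⟨p, hmonic, ?_⟩
    refine (mul_eq_zero.mp ?_).resolve_right (pow_ne_zero n ha')
    have h' := congrArg φ h
    rw [map_sum, map_zero, Finset.sum_range_succ', h0] at h'
    rw [← h', hp, Polynomial.eval₂_add, Polynomial.eval₂_finsetSum, Polynomial.eval₂_X_pow,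
      add_mul, Finset.sum_mul, add_comm]
    refine congrArg₂ (· + ·) (Finset.sum_congr rfl fun j hj => ?_) ?_
    · rw [Finset.mem_range] at hj
      rw [Polynomial.eval₂_mul, Polynomial.eval₂_C, Polynomial.eval₂_X_pow, map_mul, map_mul,
        map_pow, map_pow, div_pow,
        show φ a ^ n = φ a ^ (n - (j + 1)) * φ a ^ (j + 1) by
          rw [← pow_add, Nat.sub_add_cancel hj]]
      have := pow_ne_zero (n - (j + 1)) ha'
      rw [mul_assoc (φ (c (j + 1))), ← mul_assoc (φ b ^ (n - (j + 1)) / φ a ^ (n - (j + 1))),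
        div_mul_cancel₀ _ this]
      ring
    · rw [div_pow, div_mul_cancel₀ _ (pow_ne_zero n ha')]
      simp
  obtain ⟨d, hd⟩ := IsIntegrallyClosed.algebraMap_eq_of_integral hint
  exact ⟨d, hinj (by rw [map_mul, hd, div_mul_cancel₀ _ ha'])⟩

theorem exists_functional {x : ℂ} (hx : x ≠ 0) : ∃ φ : ℂ →ₗ[ℚ] ℚ, φ x = 1 := by
  obtain ⟨φ, hφ⟩ := Module.Projective.exists_dual_ne_zero ℚ hx
  exact ⟨(φ x)⁻¹ • φ, by simp [hφ]⟩

variable {N : ℕ} [NeZero N] {k : ℤ}

theorem bddDenom_of_rational {f : ℍ → ℂ} (hf : f ∈ cuspForms N k)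
    (hrat : ∀ m, ∃ r : ℚ, (qExp f).coeff m = r) : BddDenom (qExp f) := by
  classical
  choose r hr using hrat
  set x : PowerSeries ℚ := PowerSeries.mk r
  have hx : qExp f = PowerSeries.map (algebraMap ℚ ℂ) x := by
    ext m; simp [x, hr]
  obtain ⟨n, e, hn, he0, hem, -, hrel⟩ := exists_monic_equation hf
  set G := interpDenom N
  have qf := isQFun_of_mem hf.1
  have hGr := interpDenom_mem (N := N)
  have hHr := mul_interpDenom_mem hf.1
  have qG := isQFun_of_mem_ratForms hGr
  obtain ⟨m₀, hm₀⟩ : ∃ m, (qExp G).coeff m ≠ 0 := by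
    by_contra! h
    exact interpDenom_ne_zero (qG.qExp_eq_zero_iff.mp (PowerSeries.ext (by simpa using h)))
  obtain ⟨φ, hφ⟩ := exists_functional hm₀
  obtain ⟨ψ, hψ⟩ := exists_functional one_ne_zero
  set A := coeffwise φ (qExp G)
  have hA0 : A ≠ 0 := fun h => by
    have := congrArg (PowerSeries.coeff m₀) h
    simp [A, hφ] at this
  have hAx : coeffwise φ (qExp (f * G)) = A * x := by
    rw [qf.qExp_mul qG, mul_comm, hx, coeffwise_mul]
  have hψ1 : coeffwise ψ 1 = 1 := by
    ext m
    simp only [coeff_coeffwise, PowerSeries.coeff_one]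
    split_ifs <;> simp [hψ]
  have hEx : ∑ j ∈ Finset.range (n + 1), coeffwise ψ (qExp (e j)) * x ^ (n - j) = 0 := by
    have hq : ∀ j ∈ Finset.range (n + 1), IsQFun (e j * f ^ (n - j)) :=
      fun j _ => (isQFun_of_mem (hem j)).mul (qf.pow _)
    have h := congrArg (fun F => coeffwise ψ (qExp F)) hrel
    simp only [qExp, qExpansion_zero, coeffwise_zero] at h
    rw [← h]
    change _ = coeffwise ψ (qExp _)
    rw [IsQFun.qExp_sum hq]
    refine (Finset.sum_congr rfl fun j _ => ?_).trans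
      (map_sum (AddMonoidHom.mk' (coeffwise ψ) (coeffwise_add ψ)) _ _).symm
    change _ = coeffwise ψ _
    rw [(isQFun_of_mem (hem j)).qExp_mul (qf.pow _), qf.qExp_pow, hx, ← map_pow, coeffwise_mul]
  obtain ⟨DA, hDA, a, ha⟩ := bddDenomRat_coeffwise φ hGr
  obtain ⟨DB, hDB, b, hb⟩ := bddDenomRat_coeffwise φ hHr
  rw [hAx] at hb
  have hE : ∀ j, BddDenomRat (coeffwise ψ (qExp (e j))) := fun j =>
    bddDenomRat_coeffwise ψ (mem_ratForms_one (hem j))
  choose DE hDE ε hε using hE
  set D := ∏ j ∈ Finset.range (n + 1), DE j with hD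
  have hD0 : D ≠ 0 := Finset.prod_ne_zero_iff.mpr fun j _ => hDE j
  set ι := PowerSeries.map (Int.castRingHom ℚ) with hι
  have hιinj : Function.Injective ι := PowerSeries.map_injective _ Int.cast_injective
  have hcoef : ∀ j, j ≤ n → ∃ c : PowerSeries ℤ,
      ι c = (D : ℚ) ^ j • coeffwise ψ (qExp (e j)) ∧ (j = 0 → c = 1) := by
    intro j hj
    rcases Nat.eq_zero_or_pos j with rfl | hjp
    · refine ⟨1, ?_, fun _ => rfl⟩
      rw [he0, qExp, qExpansion_one, hψ1]
      simp
    · obtain ⟨q, hq⟩ : DE j ∣ D := Finset.dvd_prod_of_mem _ (Finset.mem_range.mpr (by omega))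
      refine ⟨((D ^ (j - 1) * q : ℕ) : PowerSeries ℤ) * ε j, ?_, by omega⟩
      rw [map_mul, map_natCast, ← hε j, ← nsmul_eq_mul, ← Nat.cast_smul_eq_nsmul ℚ, smul_smul]
      congr 1
      rw [show (D : ℚ) ^ j = (D : ℚ) ^ (j - 1) * D by
        rw [← pow_succ, Nat.sub_add_cancel hjp], hq]
      push_cast; ring
  choose! c hc hc0 using hcoef
  set y := (D : ℚ) • x with hy
  -- `y * (DB • a) = D • (DA • b)`
  have hyab : y * ι ((DB : PowerSeries ℤ) * a) = ι (((D * DA : ℕ) : PowerSeries ℤ) * b) := by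
    rw [map_mul, map_mul, map_natCast, map_natCast, ← ha, ← hb, hy, ← nsmul_eq_mul,
      ← nsmul_eq_mul, ← Nat.cast_smul_eq_nsmul ℚ, ← Nat.cast_smul_eq_nsmul ℚ]
    simp only [smul_mul_assoc, mul_smul_comm, smul_smul]
    rw [mul_comm x _]
    congr 1
    push_cast; ring
  have ha0 : (DB : PowerSeries ℤ) * a ≠ 0 := by
    refine mul_ne_zero (fun h => hDB ?_) fun h => hA0 ?_
    · have := congrArg PowerSeries.constantCoeff h
      simpa using this
    · rw [h, map_zero, smul_eq_zero] at ha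
      exact ha.resolve_left (Nat.cast_ne_zero.mpr hDA)
  have hhom : ∑ j ∈ Finset.range (n + 1), c j * (((D * DA : ℕ) : PowerSeries ℤ) * b) ^ (n - j) *
      ((DB : PowerSeries ℤ) * a) ^ j = 0 := by
    refine hιinj ?_
    rw [map_sum, map_zero]
    have : ∑ j ∈ Finset.range (n + 1), (D : ℚ) ^ n •
        (coeffwise ψ (qExp (e j)) * x ^ (n - j) * ι ((DB : PowerSeries ℤ) * a) ^ n) = 0 := by
      rw [← Finset.smul_sum, ← Finset.sum_mul, hEx, zero_mul, smul_zero]
    rw [← this]
    refine Finset.sum_congr rfl fun j hj => ?_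
    have hj' : j ≤ n := by simpa [Nat.lt_succ_iff] using hj
    rw [map_mul, map_mul, map_pow, map_pow, ← hyab, hc j hj', hy,
      show ι ((DB : PowerSeries ℤ) * a) ^ n =
        ι ((DB : PowerSeries ℤ) * a) ^ (n - j) * ι ((DB : PowerSeries ℤ) * a) ^ j by
          rw [← pow_add, Nat.sub_add_cancel hj'],
      show (D : ℚ) ^ n = (D : ℚ) ^ j * (D : ℚ) ^ (n - j) by
          rw [← pow_add, Nat.add_sub_cancel' hj'],
      mul_pow, smul_pow]
    simp only [smul_mul_assoc, mul_smul_comm, smul_smul]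
    congr 1 <;> ring
  obtain ⟨d, hd⟩ := exists_mul_eq_of_homogeneous ha0 (hc0 0 (Nat.zero_le n) rfl) hhom
  have hyd : y = ι d := by
    have h := congrArg ι hd
    rw [map_mul, ← hyab] at h
    exact (mul_right_cancel₀ (fun h0 => ha0 (hιinj (by rw [h0, map_zero]))) h).symm
  refine ⟨D, hD0, d, ?_⟩
  ext m
  have h := congrArg (PowerSeries.coeff m) hyd
  simp only [y, x, ι, PowerSeries.coeff_smul, PowerSeries.coeff_mk, PowerSeries.coeff_map,
    smul_eq_mul, Int.coe_castRingHom] at h
  rw [PowerSeries.coeff_smul, smul_eq_mul, hr, PowerSeries.coeff_map, Int.coe_castRingHom]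
  have h2 := congrArg (fun q : ℚ => (q : ℂ)) h
  push_cast at h2
  exact h2

end FA.Period
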