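import Fermat.Agent.Period.Descent
import Fermat.Agent.Period.Denominators
import Fermat.Prelude.Def_CuspForm_IntegralStructure
import Fermat.Prelude.Thm_ModularForm_sturm_bound_Gamma0
import Fermat.Prelude.Thm_CuspForm_intLattice_fg
import Fermat.Prelude.Thm_CuspForm_mem_intLattice_of_mem_heckeAlgebra

/-!
# Integral structure on cusp forms and finiteness of the Hecke algebra
-/

set_option autoImplicit false

namespace FA.Period

open UpperHalfPlane CongruenceSubgroup
open scoped MatrixGroups

variable (N : ℕ) [NeZero N] (k : ℤ)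

/-- The `q`-coefficient map on cusp forms. -/
noncomputable def coeffMap : CuspForm (Gamma0 N) k →ₗ[ℂ] (ℕ → ℂ) where
  toFun f := fun n => (qExp ⇑f).coeff n
  map_add' f g := by
    funext n
    simp only [Pi.add_apply]
    rw [FunLike.coe_add, (isQFun_of_mem (coe_mem_cuspForms f).1).qExp_add
      (isQFun_of_mem (coe_mem_cuspForms g).1), map_add]
  map_smul' c f := by
    funext n
    simp only [Pi.smul_apply, RingHom.id_apply, smul_eq_mul]
    rw [FunLike.coe_smul, (isQFun_of_mem (coe_mem_cuspForms f).1).qExp_smul,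
      PowerSeries.coeff_smul, smul_eq_mul]

/-- Sturm's bound for cusp forms on `Γ₀(N)`. -/
theorem cuspForm_eq_zero_of_coeff (f : CuspForm (Gamma0 N) k)
    (h : ∀ n ∈ Finset.range ((k * (Gamma0 N).index).toNat / 12 + 1), coeffMap N k f n = 0) :
    f = 0 := by
  let F : ModularForm (Gamma0 N) k :=
    { toFun := ⇑f
      slash_action_eq' := f.slash_action_eq'
      holo' := f.holo'
      bdd_at_cusps' := fun hc => fun g hg => (f.zero_at_cusps' hc g hg).isBoundedAtImInfty }
  have hF : F = 0 := ModularForm.sturm_bound_Gamma0 N F fun n hn =>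
    h n (Finset.mem_range.mpr (by omega))
  ext τ
  exact DFunLike.congr_fun hF τ

/-- **The cusp forms on `Γ₀(N)` have an integral structure, in every weight.** -/
theorem hasIntegralStructure : CuspForm.HasIntegralStructure N k := by
  refine eq_top_iff.mpr fun f _ => ?_
  set Φ := coeffMap N k
  set J := Finset.range ((k * (Gamma0 N).index).toNat / 12 + 1)
  have hker : ∀ g, Φ g = 0 → g = 0 := fun g hg =>
    cuspForm_eq_zero_of_coeff N k g fun n _ => congrFun hg n
  have hinj : Function.Injective Φ :=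
    (injective_iff_map_eq_zero Φ).mpr hker
  have hstab : ∀ σ : ℂ ≃+* ℂ, ∀ w ∈ LinearMap.range Φ,
      (fun i => σ (w i)) ∈ LinearMap.range Φ := by
    rintro σ _ ⟨g, rfl⟩
    obtain ⟨g', hg', hq⟩ := exists_conjugate_cuspForm (coe_mem_cuspForms g) (σ : ℂ →+* ℂ)
    refine ⟨toCuspForm' g' hg', funext fun n => ?_⟩
    exact (congrArg (PowerSeries.coeff n) hq).trans (PowerSeries.coeff_map _ _ _)
  have hJ : ∀ w ∈ LinearMap.range Φ, (∀ i ∈ J, w i = 0) → w = 0 := by
    rintro _ ⟨g, rfl⟩ hg
    rw [cuspForm_eq_zero_of_coeff N k g hg, map_zero]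
  have hmem : Φ f ∈ Submodule.map Φ (Submodule.span ℂ
      ((CuspForm.intLattice N k : Submodule ℤ (CuspForm (Gamma0 N) k)) :
        Set (CuspForm (Gamma0 N) k))) := by
    refine Submodule.span_le.mpr ?_ (span_rational_of_stable _ hstab J hJ ⟨f, rfl⟩)
    rintro _ ⟨⟨g, rfl⟩, hrat⟩
    obtain ⟨D, hD, ψ, hψ⟩ := bddDenom_of_rational (coe_mem_cuspForms g) hrat
    refine ⟨g, ?_, rfl⟩
    have hDg : (D : ℂ) • g ∈ CuspForm.intLattice N k := by
      refine Submodule.subset_span fun n => ⟨ψ.coeff n, ?_⟩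
      change Φ ((D : ℂ) • g) n = _
      rw [map_smul, Pi.smul_apply]
      have h := congrArg (PowerSeries.coeff n) hψ
      rw [PowerSeries.coeff_smul, PowerSeries.coeff_map] at h
      exact h
    have h2 := Submodule.smul_mem (Submodule.span ℂ
      ((CuspForm.intLattice N k : Submodule ℤ (CuspForm (Gamma0 N) k)) :
        Set (CuspForm (Gamma0 N) k))) (D : ℂ)⁻¹ (Submodule.subset_span hDg)
    rwa [smul_smul, inv_mul_cancel₀ (Nat.cast_ne_zero.mpr hD), one_smul] at h2
  obtain ⟨g, hg, hgf⟩ := hmem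
  rwa [← hinj hgf]

/-- Cusp forms of weight `≤ 0` vanish. -/
theorem cuspForm_eq_zero_of_nonpos (hk : k ≤ 0) (f : CuspForm (Gamma0 N) k) : f = 0 := by
  refine cuspForm_eq_zero_of_coeff N k f fun n hn => ?_
  have h0 : (k * (Gamma0 N).index).toNat = 0 := by
    rw [Int.toNat_eq_zero]
    exact mul_nonpos_of_nonpos_of_nonneg hk (Int.natCast_nonneg _)
  rw [h0] at hn
  obtain rfl : n = 0 := by simpa using hn
  exact ((isQFun_of_mem (coe_mem_cuspForms f).1).isZeroAtImInfty_iff).mp (by
    simpa using (coe_mem_cuspForms f).2 1)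

/-- **The Hecke algebra is finite over `ℤ`.** -/
theorem moduleFinite_heckeAlgebra (S : Set ℕ) : Module.Finite ℤ (CuspForm.heckeAlgebra N k S) := by
  rcases le_or_gt k 0 with hk | hk
  · have : Subsingleton (CuspForm.heckeAlgebra N k S) := ⟨fun a b => Subtype.ext
      (LinearMap.ext fun f => by simp [cuspForm_eq_zero_of_nonpos N k hk f])⟩
    exact Module.Finite.of_surjective (0 : ℤ →ₗ[ℤ] CuspForm.heckeAlgebra N k S)
      (fun x => ⟨0, Subsingleton.elim _ _⟩)
  obtain ⟨gen, hgen⟩ := CuspForm.intLattice_fg N k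
  have hL : ∀ v ∈ gen, v ∈ CuspForm.intLattice N k := fun v hv => hgen ▸ Submodule.subset_span hv
  have : Module.Finite ℤ (CuspForm.intLattice N k) :=
    Module.Finite.iff_fg.mpr ⟨gen, hgen⟩
  let ρ : CuspForm.heckeAlgebra N k S →ₗ[ℤ] (gen → CuspForm.intLattice N k) :=
    { toFun := fun t v => ⟨(t : Module.End ℂ (CuspForm (Gamma0 N) k)) v,
        CuspForm.mem_intLattice_of_mem_heckeAlgebra hk t.2 (hL v v.2)⟩
      map_add' := fun s t => by funext v; ext1; simp
      map_smul' := fun c t => by funext v; ext1; simp }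
  refine Module.Finite.of_injective ρ fun s t hst => Subtype.ext ?_
  refine LinearMap.ext_on (s := (gen : Set (CuspForm (Gamma0 N) k))) ?_ fun v hv => ?_
  · refine eq_top_iff.mpr ?_
    rw [← hasIntegralStructure N k, Submodule.span_le, ← hgen]
    intro g hg
    exact Submodule.span_le_restrictScalars ℤ ℂ _ hg
  · exact congrArg Subtype.val (congrFun hst ⟨v, hv⟩)

end FA.Period
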