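import Fermat.Agent.Period.Coset

/-!
# Applying a field automorphism to the coefficients of a cusp form gives a cusp form
-/

set_option autoImplicit false

namespace FA.Period

open UpperHalfPlane ModularForm CongruenceSubgroup Filter
open scoped MatrixGroups Manifold Topology

/-- Cauchy's bound for a root of a monic polynomial. -/
theorem norm_root_le {n : ℕ} (hn : 0 < n) {c : ℕ → ℂ} {z : ℂ} (h0 : c 0 = 1)
    (hz : ∑ j ∈ Finset.range (n + 1), c j * z ^ (n - j) = 0) :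
    ‖z‖ ≤ 1 + ∑ j ∈ Finset.range n, ‖c (j + 1)‖ ∧
      (∑ j ∈ Finset.range n, ‖c (j + 1)‖ < 1 → ‖z‖ ^ n ≤ ∑ j ∈ Finset.range n, ‖c (j + 1)‖) := by
  rw [Finset.sum_range_succ', h0, one_mul, Nat.sub_zero] at hz
  set s := ∑ j ∈ Finset.range n, ‖c (j + 1)‖
  have hs : 0 ≤ s := Finset.sum_nonneg fun _ _ => norm_nonneg _
  have key : ∀ M : ℝ, 1 ≤ M → ‖z‖ ≤ M → ‖z‖ ^ n ≤ s * M ^ (n - 1) := by
    intro M hM hzM
    have : z ^ n = -∑ j ∈ Finset.range n, c (j + 1) * z ^ (n - (j + 1)) := by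
      linear_combination hz
    rw [← norm_pow, this, norm_neg, Finset.sum_mul]
    refine (norm_sum_le _ _).trans (Finset.sum_le_sum fun j hj => ?_)
    rw [norm_mul, norm_pow]
    gcongr
    calc ‖z‖ ^ (n - (j + 1)) ≤ M ^ (n - (j + 1)) := by gcongr
      _ ≤ M ^ (n - 1) := pow_le_pow_right₀ hM (by omega)
  have hbig : 1 < ‖z‖ → ‖z‖ ≤ s := by
    intro h1
    have h := key ‖z‖ h1.le le_rfl
    rw [show ‖z‖ ^ n = ‖z‖ * ‖z‖ ^ (n - 1) by rw [← pow_succ', Nat.sub_add_cancel hn]] at h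
    exact le_of_mul_le_mul_right h (by positivity)
  refine ⟨?_, fun hs1 => ?_⟩
  · rcases le_or_gt ‖z‖ 1 with h | h
    · linarith
    · linarith [hbig h]
  · rcases le_or_gt ‖z‖ 1 with h | h
    · simpa using key 1 le_rfl h
    · linarith [hbig h]

/-- A quotient of holomorphic functions which is integral over holomorphic functions is
holomorphic. -/
theorem exists_quotient_of_integral {H G : ℍ → ℂ} (hH : MDiff H) (hG : MDiff G) (hG0 : G ≠ 0)
    {n : ℕ} (hn : 0 < n) {e : ℕ → ℍ → ℂ} (he : ∀ j, MDiff (e j)) (he0 : e 0 = 1)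
    (hrel : ∑ j ∈ Finset.range (n + 1), e j * H ^ (n - j) * G ^ j = 0) :
    ∃ u : ℍ → ℂ, MDiff u ∧ u * G = H ∧ ∑ j ∈ Finset.range (n + 1), e j * u ^ (n - j) = 0 := by
  have hrel' : ∀ τ : ℍ, ∑ j ∈ Finset.range (n + 1), e j τ * H τ ^ (n - j) * G τ ^ j = 0 :=
    fun τ => by simpa using congrFun hrel τ
  have hne : ∀ τ : ℍ, G τ ≠ 0 →
      ∑ j ∈ Finset.range (n + 1), e j τ * (H τ / G τ) ^ (n - j) = 0 := by
    intro τ hτ
    refine (mul_eq_zero.mp ?_).resolve_right (pow_ne_zero n hτ)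
    rw [Finset.sum_mul, ← hrel' τ]
    refine Finset.sum_congr rfl fun j hj => ?_
    have hj' : j ≤ n := by simpa [Nat.lt_succ_iff] using hj
    rw [div_pow, show G τ ^ n = G τ ^ (n - j) * G τ ^ j by rw [← pow_add, Nat.sub_add_cancel hj']]
    field_simp
  set Hc := H ∘ ofComplex with hHc
  set Gc := G ∘ ofComplex with hGc
  set q : ℂ → ℂ := fun z => Hc z / Gc z with hq
  set U : ℂ → ℂ := fun z => limUnder (𝓝[≠] z) q with hU
  have hUat : ∀ z : ℂ, 0 < z.im → DifferentiableAt ℂ U z ∧ (Gc z ≠ 0 → U z = q z) := by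
    intro z₀ hz₀
    have hval : ∀ z : ℂ, 0 < z.im → Gc z ≠ 0 → DifferentiableAt ℂ q z ∧ U z = q z := by
      intro z hz hz0
      have hd : DifferentiableAt ℂ q z :=
        (mdifferentiableAt_iff.mp (hH ⟨z, hz⟩)).div (mdifferentiableAt_iff.mp (hG ⟨z, hz⟩)) hz0
      exact ⟨hd, (hd.continuousAt.tendsto.mono_left nhdsWithin_le_nhds).limUnder_eq⟩
    refine ⟨?_, fun h => (hval z₀ hz₀ h).2⟩
    have hGan : AnalyticAt ℂ Gc z₀ :=
      (UpperHalfPlane.mdifferentiable_iff.mp hG).analyticAt (isOpen_upperHalfPlaneSet.mem_nhds hz₀)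
    have hpunct : ∀ᶠ z in 𝓝[≠] z₀, Gc z ≠ 0 := by
      rcases hGan.eventually_eq_zero_or_eventually_ne_zero with h | h
      · refine absurd (eq_zero_of_frequently hG (τ := ⟨z₀, hz₀⟩) ?_) hG0
        refine Eventually.frequently ?_
        have hc : Tendsto ((↑) : ℍ → ℂ) (𝓝[≠] (⟨z₀, hz₀⟩ : ℍ)) (𝓝 z₀) :=
          ((continuous_coe).tendsto _).mono_left nhdsWithin_le_nhds
        filter_upwards [hc.eventually h] with τ hτ
        simpa [hGc] using hτ
      · exact h
    set B : ℂ → ℝ := fun z => 1 + ∑ j ∈ Finset.range n, ‖e (j + 1) (ofComplex z)‖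
    have hB : ContinuousAt B z₀ := by
      refine continuousAt_const.add (tendsto_finsetSum _ fun j _ => ?_)
      exact (mdifferentiableAt_iff.mp (he (j + 1) ⟨z₀, hz₀⟩)).continuousAt.norm
    have hnhds : ∀ᶠ z in 𝓝 z₀, 0 < z.im ∧ B z ≤ B z₀ + 1 ∧ (z ≠ z₀ → Gc z ≠ 0) := by
      refine Eventually.and (isOpen_upperHalfPlaneSet.mem_nhds hz₀) (Eventually.and ?_ ?_)
      · exact hB.eventually (eventually_le_nhds (lt_add_one _))
      · exact eventually_nhdsWithin_iff.mp hpunct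
    set s := {z : ℂ | 0 < z.im ∧ B z ≤ B z₀ + 1 ∧ (z ≠ z₀ → Gc z ≠ 0)}
    have hs : s ∈ 𝓝 z₀ := hnhds
    have hd : DifferentiableOn ℂ q (s \ {z₀}) := fun z hz =>
      ((hval z hz.1.1 (hz.1.2.2 hz.2)).1).differentiableWithinAt
    have hb : BddAbove (norm ∘ q '' (s \ {z₀})) := by
      refine ⟨B z₀ + 1, ?_⟩
      rintro _ ⟨z, ⟨⟨hz, hzB, hzG⟩, hzne⟩, rfl⟩
      refine le_trans ?_ hzB
      exact (norm_root_le hn (c := fun j => e j (ofComplex z)) (by simp [he0])
        (hne (ofComplex z) (hzG hzne))).1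
    have h := (Complex.differentiableOn_update_limUnder_of_bddAbove hs hd hb).differentiableAt hs
    refine h.congr_of_eventuallyEq ?_
    filter_upwards [hs] with z hz
    by_cases hzz : z = z₀
    · subst hzz
      simp [hU]
    · rw [Function.update_of_ne hzz]
      exact (hval z hz.1 (hz.2.2 hzz)).2
  refine ⟨fun τ => U τ, ?_, ?_, ?_⟩
  · refine UpperHalfPlane.mdifferentiable_iff.mpr fun z hz => ?_
    refine ((hUat z hz).1.congr_of_eventuallyEq ?_).differentiableWithinAt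
    filter_upwards [isOpen_upperHalfPlaneSet.mem_nhds hz] with w hw
    simp [ofComplex_apply_of_im_pos hw]
  · funext τ
    by_cases hτ : G τ = 0
    · have h := hrel' τ
      rw [Finset.sum_eq_single 0] at h
      · simp only [he0, Pi.one_apply, one_mul, pow_zero, mul_one, Nat.sub_zero] at h
        simp [hτ, eq_zero_of_pow_eq_zero h]
      · intro j _ hj; simp [hτ, hj]
      · simp
    · have := (hUat τ τ.im_pos).2 (by simpa [hGc] using hτ)
      simp [this, hq, hHc, hGc, hτ]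
  · have hu : MDiff (fun τ : ℍ => U τ) := by
      refine UpperHalfPlane.mdifferentiable_iff.mpr fun z hz => ?_
      refine ((hUat z hz).1.congr_of_eventuallyEq ?_).differentiableWithinAt
      filter_upwards [isOpen_upperHalfPlaneSet.mem_nhds hz] with w hw
      simp [ofComplex_apply_of_im_pos hw]
    set P := ∑ j ∈ Finset.range (n + 1), e j * (fun τ : ℍ => U τ) ^ (n - j)
    have hP : P * G = 0 := by
      funext τ
      by_cases hτ : G τ = 0
      · simp [hτ]
      · have h1 := (hUat τ τ.im_pos).2 (by simpa [hGc] using hτ)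
        have h2 := hne τ hτ
        simp [P, h1, hq, hHc, hGc, h2]
    exact ((UpperHalfPlane.mul_eq_zero_iff
      (mdiff_sum _ fun j _ => (he j).mul (hu.pow (n - j))) hG).mp hP).resolve_right hG0

variable {N : ℕ} [NeZero N] {k : ℤ}

theorem pow_slash (k : ℤ) (γ : SL(2, ℤ)) (u : ℍ → ℂ) :
    ∀ m : ℕ, (u ^ m) ∣[(m : ℤ) * k] γ = (u ∣[k] γ) ^ m
  | 0 => by simpa using is_invariant_one γ
  | m + 1 => by
    rw [pow_succ, pow_succ, show ((m + 1 : ℕ) : ℤ) * k = (m : ℤ) * k + k by push_cast; ring,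
      mul_slash_SL2, pow_slash k γ u m]

/-- The equation satisfied by `u` also holds for all of its translates. -/
theorem equation_slash {n : ℕ} {e : ℕ → ℍ → ℂ} (he : ∀ j : ℕ, e j ∈ forms 1 ((j : ℤ) * k))
    {u : ℍ → ℂ} (h : ∑ j ∈ Finset.range (n + 1), e j * u ^ (n - j) = 0) (γ : SL(2, ℤ)) :
    ∑ j ∈ Finset.range (n + 1), e j * (u ∣[k] γ) ^ (n - j) = 0 := by
  have h' := congrArg (fun F : ℍ → ℂ => F ∣[(n : ℤ) * k] γ) h
  simp only [SlashAction.zero_slash, SlashAction.sum_slash] at h'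
  rw [← h']
  refine Finset.sum_congr rfl fun j hj => ?_
  rw [show (n : ℤ) * k = (j : ℤ) * k + ((n - j : ℕ) : ℤ) * k by
      rw [Nat.cast_sub (by simpa [Nat.lt_succ_iff] using hj)]; ring,
    mul_slash_SL2, slash_eq_of_mem_forms_one (he j) γ, pow_slash]

theorem zeroAtImInfty_of_equation {n : ℕ} (hn : 0 < n) {e : ℕ → ℍ → ℂ} (he0 : e 0 = 1)
    (hez : ∀ j : ℕ, j ≠ 0 → IsZeroAtImInfty (e j)) {u : ℍ → ℂ}
    (h : ∑ j ∈ Finset.range (n + 1), e j * u ^ (n - j) = 0) : IsZeroAtImInfty u := by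
  have hs : Tendsto (fun τ => ∑ j ∈ Finset.range n, ‖e (j + 1) τ‖) atImInfty (𝓝 0) := by
    simpa using tendsto_finsetSum (Finset.range n)
      (fun j _ => tendsto_zero_iff_norm_tendsto_zero.mp (hez (j + 1) (by omega)))
  rw [IsZeroAtImInfty, ZeroAtFilter, Metric.tendsto_nhds]
  intro ε hε
  filter_upwards [hs.eventually (eventually_lt_nhds (zero_lt_one' ℝ)),
    hs.eventually (eventually_lt_nhds (pow_pos hε n))] with τ h1 h2
  have hτ : ∑ j ∈ Finset.range (n + 1), e j τ * u τ ^ (n - j) = 0 := by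
    simpa using congrFun h τ
  have hb := (norm_root_le hn (c := fun j => e j τ) (by simp [he0]) hτ).2 h1
  rw [dist_zero_right]
  exact lt_of_pow_lt_pow_left₀ n hε.le (hb.trans_lt h2)

/-- **Galois stability**: the space of cusp forms on `Γ₀(N)` is stable under applying a field
endomorphism of `ℂ` to the `q`-expansion coefficients. -/
theorem exists_conjugate_cuspForm {f : ℍ → ℂ} (hf : f ∈ cuspForms N k) (σ : ℂ →+* ℂ) :
    ∃ f' ∈ cuspForms N k, qExp f' = PowerSeries.map σ (qExp f) := by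
  classical
  obtain ⟨n, e, hn, he0, hem, hez, hrel⟩ := exists_monic_equation hf
  set G := interpDenom N
  set w : ℤ := 12 * ((Fintype.card (CosetSpace N) : ℤ) - 1)
  have hGr : G ∈ ratForms N w := interpDenom_mem
  have hHr : f * G ∈ ratForms N (k + w) := mul_interpDenom_mem hf.1
  obtain ⟨G', hG'r, hG'q⟩ := exists_conjugate_ratForms σ hGr
  obtain ⟨H', hH'r, hH'q⟩ := exists_conjugate_ratForms σ hHr
  choose e' he'r he'q using fun j => exists_conjugate_ratForms σ (mem_ratForms_one (hem j))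
  have qG := isQFun_of_mem_ratForms hGr
  have qG' := isQFun_of_mem_ratForms hG'r
  have qH := isQFun_of_mem_ratForms hHr
  have qH' := isQFun_of_mem_ratForms hH'r
  have qe := fun j => isQFun_of_mem (hem j)
  have qe' := fun j => isQFun_of_mem_ratForms (he'r j)
  have hG'0 : G' ≠ 0 := fun h0 => interpDenom_ne_zero (N := N) <| by
    rw [h0, qExp, qExpansion_zero] at hG'q
    refine qG.qExp_eq_zero_iff.mp (PowerSeries.map_injective σ σ.injective ?_)
    rw [map_zero]; exact hG'q.symm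
  have he'0 : e' 0 = 1 := by
    refine (qe' 0).eq_of_qExp_eq IsQFun.one ?_
    rw [he'q, he0, qExp, qExpansion_one, map_one]
  have hrelG : ∑ j ∈ Finset.range (n + 1), e j * (f * G) ^ (n - j) * G ^ j = 0 := by
    rw [← zero_mul (G ^ n), ← hrel, Finset.sum_mul]
    refine Finset.sum_congr rfl fun j hj => ?_
    have hj' : j ≤ n := by simpa [Nat.lt_succ_iff] using hj
    rw [mul_pow, show G ^ n = G ^ (n - j) * G ^ j by rw [← pow_add]; congr 1; omega]
    ring
  have hrel' : ∑ j ∈ Finset.range (n + 1), e' j * H' ^ (n - j) * G' ^ j = 0 := by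
    have hq' : ∀ j ∈ Finset.range (n + 1), IsQFun (e' j * H' ^ (n - j) * G' ^ j) :=
      fun j _ => ((qe' j).mul (qH'.pow _)).mul (qG'.pow _)
    have hq : ∀ j ∈ Finset.range (n + 1), IsQFun (e j * (f * G) ^ (n - j) * G ^ j) :=
      fun j _ => ((qe j).mul (qH.pow _)).mul (qG.pow _)
    rw [← (IsQFun.sum hq').qExp_eq_zero_iff, IsQFun.qExp_sum hq']
    have h0 := congrArg (fun F => PowerSeries.map σ (qExp F)) hrelG
    simp only [qExp, qExpansion_zero, map_zero] at h0
    rw [← h0]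
    change _ = PowerSeries.map σ (qExp _)
    rw [IsQFun.qExp_sum hq, map_sum]
    refine Finset.sum_congr rfl fun j _ => ?_
    rw [((qe' j).mul (qH'.pow _)).qExp_mul (qG'.pow _), (qe' j).qExp_mul (qH'.pow _),
      qH'.qExp_pow, qG'.qExp_pow, ((qe j).mul (qH.pow _)).qExp_mul (qG.pow _),
      (qe j).qExp_mul (qH.pow _), qH.qExp_pow, qG.qExp_pow, he'q, hH'q, hG'q, map_mul, map_mul,
      map_pow, map_pow]
  obtain ⟨u, hu, huG, hueq⟩ := exists_quotient_of_integral qH'.mdiff qG'.mdiff hG'0 hn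
    (fun j => (qe' j).mdiff) he'0 hrel'
  have he'z : ∀ j : ℕ, j ≠ 0 → IsZeroAtImInfty (e' j) := fun j hj => by
    rw [(qe' j).isZeroAtImInfty_iff, he'q, PowerSeries.coeff_map,
      ((qe j).isZeroAtImInfty_iff).mp (hez j hj), map_zero]
  have hz : ∀ γ : SL(2, ℤ), IsZeroAtImInfty (u ∣[k] γ) := fun γ =>
    zeroAtImInfty_of_equation hn he'0 he'z
      (equation_slash (fun j => ratForms_le _ _ (he'r j)) hueq γ)
  have hinv : ∀ γ ∈ Gamma0 N, u ∣[k] γ = u := by
    intro γ hγ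
    have h1 : (u ∣[k] γ) * G' = u * G' := by
      rw [huG]
      conv_lhs => rw [← (ratForms_le _ _ hG'r).1 γ hγ]
      rw [← mul_slash_SL2, huG, (ratForms_le _ _ hH'r).1 γ hγ]
    have h2 : (u ∣[k] γ - u) * G' = 0 := by rw [sub_mul, h1, sub_self]
    refine sub_eq_zero.mp (((UpperHalfPlane.mul_eq_zero_iff ?_ qG'.mdiff).mp h2).resolve_right hG'0)
    exact (hu.slash k _).sub hu
  have humem : u ∈ cuspForms N k := ⟨⟨hinv, hu, fun γ => (hz γ).isBoundedAtImInfty⟩, hz⟩
  refine ⟨u, humem, ?_⟩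
  have qu := isQFun_of_mem humem.1
  have h := congrArg qExp huG
  rw [qu.qExp_mul qG', hH'q, (isQFun_of_mem hf.1).qExp_mul qG, map_mul, ← hG'q] at h
  exact mul_right_cancel₀ (fun h0 => hG'0 (qG'.qExp_eq_zero_iff.mp h0)) h

end FA.Period
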