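import Mathlib

/-!
# Modular forms on `Γ₀(N)` as functions, and their `q`-expansions

`forms N w` is the space of functions underlying modular forms of weight `w` on `Γ₀(N)`,
`cuspForms N w` the cusp forms.  Working with functions avoids casts between weights.
-/

set_option autoImplicit false

namespace FA.Period

open UpperHalfPlane ModularForm CongruenceSubgroup Filter
open scoped MatrixGroups Manifold Topology

/-- Periodic, holomorphic and bounded at `i∞`: the functions having a `q`-expansion. -/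
structure IsQFun (f : ℍ → ℂ) : Prop where
  periodic : Function.Periodic (f ∘ ofComplex) (1 : ℝ)
  mdiff : MDiff f
  bdd : IsBoundedAtImInfty f

/-- The `q`-expansion at width one. -/
noncomputable abbrev qExp (f : ℍ → ℂ) : PowerSeries ℂ := qExpansion 1 f

namespace IsQFun

variable {f g : ℍ → ℂ}

theorem analyticAt (hf : IsQFun f) : AnalyticAt ℂ (cuspFunction 1 f) 0 :=
  analyticAt_cuspFunction_zero one_pos hf.periodic hf.mdiff hf.bdd

theorem add (hf : IsQFun f) (hg : IsQFun g) : IsQFun (f + g) :=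
  ⟨hf.periodic.add hg.periodic, hf.mdiff.add hg.mdiff, hf.bdd.add hg.bdd⟩

theorem mul (hf : IsQFun f) (hg : IsQFun g) : IsQFun (f * g) :=
  ⟨hf.periodic.mul hg.periodic, hf.mdiff.mul hg.mdiff, hf.bdd.mul hg.bdd⟩

theorem smul (c : ℂ) (hf : IsQFun f) : IsQFun (c • f) :=
  ⟨hf.periodic.smul c, hf.mdiff.const_smul c, hf.bdd.const_smul_left c⟩

theorem one : IsQFun (1 : ℍ → ℂ) :=
  ⟨fun _ => rfl, mdifferentiable_const, Filter.const_boundedAtFilter _ _⟩

theorem zero : IsQFun (0 : ℍ → ℂ) :=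
  ⟨fun _ => rfl, mdifferentiable_const, Filter.const_boundedAtFilter _ _⟩

theorem neg (hf : IsQFun f) : IsQFun (-f) := by simpa using hf.smul (-1)

theorem sub (hf : IsQFun f) (hg : IsQFun g) : IsQFun (f - g) := by
  simpa [sub_eq_add_neg] using hf.add hg.neg

theorem pow (hf : IsQFun f) : ∀ n : ℕ, IsQFun (f ^ n)
  | 0 => by simpa using one
  | n + 1 => by simpa [pow_succ] using (hf.pow n).mul hf

theorem qExp_mul (hf : IsQFun f) (hg : IsQFun g) : qExp (f * g) = qExp f * qExp g :=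
  qExpansion_mul hf.analyticAt hg.analyticAt

theorem qExp_add (hf : IsQFun f) (hg : IsQFun g) : qExp (f + g) = qExp f + qExp g :=
  qExpansion_add hf.analyticAt hg.analyticAt

theorem qExp_sub (hf : IsQFun f) (hg : IsQFun g) : qExp (f - g) = qExp f - qExp g :=
  qExpansion_sub hf.analyticAt hg.analyticAt

theorem qExp_smul (c : ℂ) (hf : IsQFun f) : qExp (c • f) = c • qExp f :=
  qExpansion_smul hf.analyticAt c

theorem qExp_pow (hf : IsQFun f) : ∀ n : ℕ, qExp (f ^ n) = qExp f ^ n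
  | 0 => by simpa using qExpansion_one 1
  | n + 1 => by simp only [pow_succ]; rw [(hf.pow n).qExp_mul hf, hf.qExp_pow n]

theorem qExp_eq_zero_iff (hf : IsQFun f) : qExp f = 0 ↔ f = 0 :=
  qExpansion_eq_zero_iff one_pos hf.periodic hf.mdiff hf.bdd

theorem eq_of_qExp_eq (hf : IsQFun f) (hg : IsQFun g) (h : qExp f = qExp g) : f = g := by
  rw [← sub_eq_zero, ← (hf.sub hg).qExp_eq_zero_iff, hf.qExp_sub hg, h, sub_self]

theorem sum {ι : Type*} {s : Finset ι} {F : ι → ℍ → ℂ} (h : ∀ i ∈ s, IsQFun (F i)) :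
    IsQFun (∑ i ∈ s, F i) :=
  Finset.sum_induction F IsQFun (fun _ _ ha hb => ha.add hb) zero h

theorem qExp_sum {ι : Type*} {s : Finset ι} {F : ι → ℍ → ℂ} (h : ∀ i ∈ s, IsQFun (F i)) :
    qExp (∑ i ∈ s, F i) = ∑ i ∈ s, qExp (F i) := by
  classical
  induction s using Finset.induction_on with
  | empty => simpa using qExpansion_zero 1
  | @insert a s ha ih =>
    rw [Finset.sum_insert ha, Finset.sum_insert ha,
      (h a (Finset.mem_insert_self a s)).qExp_add (sum fun i hi => h i (Finset.mem_insert_of_mem hi)),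
      ih fun i hi => h i (Finset.mem_insert_of_mem hi)]

theorem isZeroAtImInfty_iff (hf : IsQFun f) :
    IsZeroAtImInfty f ↔ (qExp f).coeff 0 = 0 := by
  have h0 := qExpansion_coeff_zero one_pos hf.analyticAt hf.periodic
  refine ⟨fun h => h0.trans h.valueAtInfty_eq_zero, fun h => ?_⟩
  have hv : cuspFunction 1 f 0 = 0 := by
    rw [cuspFunction_apply_zero one_pos hf.analyticAt hf.periodic, ← h0]; exact h
  have := hf.analyticAt.continuousAt.tendsto.comp (qParam_tendsto_atImInfty one_pos)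
  rw [hv] at this
  exact this.congr fun τ => eq_cuspFunction τ one_ne_zero hf.periodic

theorem coeff_unique (hf : IsQFun f) {c : ℕ → ℂ}
    (h : ∀ τ : ℍ, HasSum (fun m : ℕ => c m • Function.Periodic.qParam 1 τ ^ m) (f τ)) (m : ℕ) :
    c m = (qExp f).coeff m := by
  have h1 := (hasFPowerSeriesOnBall_cuspFunction one_pos hf.analyticAt h).hasFPowerSeriesAt
  have h2 := (hasFPowerSeriesOnBall_cuspFunction one_pos hf.analyticAt
    (hasSum_qExpansion one_pos hf.periodic hf.mdiff hf.bdd)).hasFPowerSeriesAt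
  simpa [FormalMultilinearSeries.coeff_ofScalars] using
    congr_arg (FormalMultilinearSeries.coeff · m) (h1.eq_formalMultilinearSeries h2)

end IsQFun

/-! ### The spaces of forms -/

/-- Modular forms of weight `w` on `Γ₀(N)`, as a space of functions. -/
def forms (N : ℕ) (w : ℤ) : Submodule ℂ (ℍ → ℂ) where
  carrier := {f | (∀ γ ∈ Gamma0 N, f ∣[w] γ = f) ∧ MDiff f ∧
    ∀ γ : SL(2, ℤ), IsBoundedAtImInfty (f ∣[w] γ)}
  zero_mem' := ⟨fun γ _ => SlashAction.zero_slash _ _, mdifferentiable_const,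
    fun γ => by rw [SlashAction.zero_slash]; exact Filter.const_boundedAtFilter _ _⟩
  add_mem' := fun {f g} hf hg => ⟨fun γ hγ => by rw [SlashAction.add_slash, hf.1 γ hγ, hg.1 γ hγ],
    hf.2.1.add hg.2.1, fun γ => by rw [SlashAction.add_slash]; exact (hf.2.2 γ).add (hg.2.2 γ)⟩
  smul_mem' := fun c f hf => ⟨fun γ hγ => by rw [SL_smul_slash, hf.1 γ hγ],
    hf.2.1.const_smul c, fun γ => by rw [SL_smul_slash]; exact (hf.2.2 γ).const_smul_left c⟩

theorem mem_forms {N : ℕ} {w : ℤ} {f : ℍ → ℂ} :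
    f ∈ forms N w ↔ (∀ γ ∈ Gamma0 N, f ∣[w] γ = f) ∧ MDiff f ∧
      ∀ γ : SL(2, ℤ), IsBoundedAtImInfty (f ∣[w] γ) :=
  Iff.rfl

theorem T_mem_Gamma0 (N : ℕ) : ModularGroup.T ∈ Gamma0 N := by
  rw [Gamma0_mem]
  simp [ModularGroup.coe_T]

theorem periodic_of_slash_T {w : ℤ} {f : ℍ → ℂ} (h : f ∣[w] ModularGroup.T = f) :
    Function.Periodic (f ∘ ofComplex) (1 : ℝ) := by
  intro z
  by_cases hz : 0 < z.im
  · have hz1 : 0 < (z + 1).im := by simpa using hz
    simp only [Function.comp_apply, Complex.ofReal_one, ofComplex_apply_of_im_pos hz,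
      ofComplex_apply_of_im_pos hz1]
    have h2 := congrFun h ⟨z, hz⟩
    rw [SL_slash_apply, modular_T_smul] at h2
    have hd : denom (ModularGroup.T : GL (Fin 2) ℝ) (⟨z, hz⟩ : ℍ) = 1 := by
      simp [denom, ModularGroup.coe_T]
    rw [hd, one_zpow, mul_one] at h2
    rw [← h2]
    congr 1
    ext
    simp [add_comm]
  · have hz1 : (z + 1).im ≤ 0 := by simpa using hz
    simp only [Function.comp_apply, Complex.ofReal_one, ofComplex_apply_of_im_nonpos hz1,
      ofComplex_apply_of_im_nonpos (not_lt.mp hz)]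

variable {N : ℕ} {w w' : ℤ} {f g : ℍ → ℂ}

theorem isQFun_of_mem (hf : f ∈ forms N w) : IsQFun f :=
  ⟨periodic_of_slash_T (hf.1 _ (T_mem_Gamma0 N)), hf.2.1,
    by simpa using hf.2.2 1⟩

theorem mul_mem_forms (hf : f ∈ forms N w) (hg : g ∈ forms N w') : f * g ∈ forms N (w + w') :=
  ⟨fun γ hγ => by rw [mul_slash_SL2, hf.1 γ hγ, hg.1 γ hγ], hf.2.1.mul hg.2.1,
    fun γ => by rw [mul_slash_SL2]; exact (hf.2.2 γ).mul (hg.2.2 γ)⟩

theorem one_mem_forms : (1 : ℍ → ℂ) ∈ forms N 0 :=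
  ⟨fun γ _ => is_invariant_one γ, mdifferentiable_const,
    fun γ => by rw [is_invariant_one]; exact Filter.const_boundedAtFilter _ _⟩

theorem mem_Gamma0_one (γ : SL(2, ℤ)) : γ ∈ Gamma0 1 := by
  simp [Subsingleton.elim ((γ.1 1 0 : ℤ) : ZMod 1) 0]

theorem forms_one_le (N : ℕ) (w : ℤ) : forms 1 w ≤ forms N w :=
  fun _ hf => ⟨fun γ _ => hf.1 γ (mem_Gamma0_one γ), hf.2⟩

theorem slash_eq_of_mem_forms_one (hf : f ∈ forms 1 w) (γ : SL(2, ℤ)) : f ∣[w] γ = f :=
  hf.1 γ (mem_Gamma0_one γ)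

/-- A holomorphic `SL₂(ℤ)`-invariant function bounded at `i∞` is a form of level one. -/
theorem mem_forms_one_of (h : ∀ γ : SL(2, ℤ), f ∣[w] γ = f) (hd : MDiff f)
    (hb : IsBoundedAtImInfty f) : f ∈ forms 1 w :=
  ⟨fun γ _ => h γ, hd, fun γ => by rw [h γ]; exact hb⟩

/-- Cusp forms of weight `w` on `Γ₀(N)`, as a space of functions. -/
def cuspForms (N : ℕ) (w : ℤ) : Submodule ℂ (ℍ → ℂ) where
  carrier := {f | f ∈ forms N w ∧ ∀ γ : SL(2, ℤ), IsZeroAtImInfty (f ∣[w] γ)}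
  zero_mem' := ⟨zero_mem _, fun γ => by
    rw [SlashAction.zero_slash]; exact tendsto_const_nhds⟩
  add_mem' := fun {f g} hf hg => ⟨add_mem hf.1 hg.1, fun γ => by
    rw [SlashAction.add_slash]; simpa [IsZeroAtImInfty, ZeroAtFilter] using (hf.2 γ).add (hg.2 γ)⟩
  smul_mem' := fun c f hf => ⟨Submodule.smul_mem _ c hf.1, fun γ => by
    rw [SL_smul_slash]; simpa [IsZeroAtImInfty, ZeroAtFilter, Pi.smul_def] using (hf.2 γ).const_smul c⟩

theorem mem_cuspForms : f ∈ cuspForms N w ↔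
    f ∈ forms N w ∧ ∀ γ : SL(2, ℤ), IsZeroAtImInfty (f ∣[w] γ) :=
  Iff.rfl

/-! ### Comparison with the bundled spaces -/

section Bundled

variable [NeZero N]

theorem coe_mem_cuspForms (f : CuspForm (Gamma0 N) w) : ⇑f ∈ cuspForms N w := by
  have hz : ∀ γ : SL(2, ℤ), IsZeroAtImInfty (⇑f ∣[w] γ) := fun γ => by
    refine f.zero_at_cusps' ?_ (γ : GL (Fin 2) ℝ) rfl
    rw [Subgroup.IsArithmetic.isCusp_iff_isCusp_SL2Z, isCusp_SL2Z_iff']
    exact ⟨γ, rfl⟩
  exact ⟨⟨fun γ hγ => SlashInvariantFormClass.slash_action_eq f (γ : GL (Fin 2) ℝ) ⟨γ, hγ, rfl⟩,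
    CuspFormClass.holo f, fun γ => (hz γ).isBoundedAtImInfty⟩, hz⟩

/-- A function in `cuspForms` as a bundled cusp form. -/
def toCuspForm' (f : ℍ → ℂ) (hf : f ∈ cuspForms N w) : CuspForm (Gamma0 N) w where
  toFun := f
  slash_action_eq' := by
    rintro _ ⟨γ, hγ, rfl⟩
    exact hf.1.1 γ hγ
  holo' := hf.1.2.1
  zero_at_cusps' hc := by
    rw [Subgroup.IsArithmetic.isCusp_iff_isCusp_SL2Z] at hc
    exact (OnePoint.isZeroAt_iff_forall_SL2Z hc).mpr fun γ _ => hf.2 γ

end Bundled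

theorem coe_mem_forms_one {k : ℤ} (f : ModularForm 𝒮ℒ k) : ⇑f ∈ forms 1 k :=
  mem_forms_one_of (fun γ => SlashInvariantFormClass.slash_action_eq f (γ : GL (Fin 2) ℝ) ⟨γ, rfl⟩)
    (ModularFormClass.holo f) (ModularFormClass.bdd_at_infty f)

/-- A level-one form as a bundled modular form. -/
def toModularForm' (f : ℍ → ℂ) (hf : f ∈ forms 1 w) : ModularForm 𝒮ℒ w where
  toFun := f
  slash_action_eq' := by
    rintro _ ⟨γ, rfl⟩
    exact slash_eq_of_mem_forms_one hf γ
  holo' := hf.2.1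
  bdd_at_cusps' hc := by
    rw [Subgroup.IsArithmetic.isCusp_iff_isCusp_SL2Z] at hc
    exact (OnePoint.isBoundedAt_iff_forall_SL2Z hc).mpr fun γ _ => hf.2.2 γ

theorem pow_mem_forms (hf : f ∈ forms N w) : ∀ n : ℕ, f ^ n ∈ forms N (n * w)
  | 0 => by simpa using one_mem_forms
  | n + 1 => by
    have := mul_mem_forms (pow_mem_forms hf n) hf
    rw [← pow_succ] at this
    convert this using 2
    push_cast; ring

end FA.Period
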