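import Fermat.Agent.Period.Forms
import Fermat.Prelude.Def_ModularCurve_PeriodHomPair

/-!
# Primitives of cusp forms of weight two and the period map
-/

set_option autoImplicit false
set_option linter.unnecessarySeqFocus false
set_option linter.unusedSimpArgs false

namespace FA.Period

open UpperHalfPlane ModularForm CongruenceSubgroup Filter ModularCurve ModularCurve.Period
open scoped MatrixGroups Manifold Topology

/-- `F` is a primitive of `g` on the upper half-plane. -/
def IsPrimitive (F g : ℍ → ℂ) : Prop := ∀ τ : ℍ, HasDerivAt (F ∘ ofComplex) (g τ) (τ : ℂ)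

theorem IsPrimitive.exists_eq_add {F G g : ℍ → ℂ} (hF : IsPrimitive F g) (hG : IsPrimitive G g) :
    ∃ c : ℂ, ∀ τ, F τ = G τ + c := by
  have h := isOpen_upperHalfPlaneSet.exists_eq_add_of_deriv_eq
    (Convex.isPreconnected (convex_halfSpace_im_gt 0))
    (fun z hz => ((hF ⟨z, hz⟩).differentiableAt).differentiableWithinAt)
    (fun z hz => ((hG ⟨z, hz⟩).differentiableAt).differentiableWithinAt)
    (fun z hz => (hF ⟨z, hz⟩).deriv.trans (hG ⟨z, hz⟩).deriv.symm)
  obtain ⟨c, hc⟩ := h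
  exact ⟨c, fun τ => by simpa using hc τ.im_pos⟩

theorem IsPrimitive.add {F G g h : ℍ → ℂ} (hF : IsPrimitive F g) (hG : IsPrimitive G h) :
    IsPrimitive (F + G) (g + h) := fun τ => (hF τ).add (hG τ)

theorem IsPrimitive.const_smul {F g : ℍ → ℂ} (c : ℂ) (hF : IsPrimitive F g) :
    IsPrimitive (c • F) (c • g) := fun τ => by
  simpa [Function.comp_def, Pi.smul_def] using (hF τ).const_smul c

theorem IsPrimitive.mdiff {F g : ℍ → ℂ} (hF : IsPrimitive F g) : MDiff F :=
  UpperHalfPlane.mdifferentiable_iff.mpr fun z hz =>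
    ((hF ⟨z, hz⟩).differentiableAt).differentiableWithinAt

theorem IsPrimitive.eq_zero_of_const {F g : ℍ → ℂ} (hF : IsPrimitive F g) {c : ℂ}
    (h : ∀ τ, F τ = c) : g = 0 := by
  funext τ
  have : F ∘ ofComplex = fun _ => c := funext fun z => h _
  have h2 := hF τ
  rw [this] at h2
  exact h2.unique (hasDerivAt_const (τ : ℂ) c)

/-- Composition of a primitive with a Moebius transformation. -/
theorem IsPrimitive.comp_smul {F g : ℍ → ℂ} (hF : IsPrimitive F g) (δ : SL(2, ℤ)) :
    IsPrimitive (fun τ => F (δ • τ)) (g ∣[(2 : ℤ)] δ) := by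
  intro τ
  have hdet : 0 < ((δ : GL (Fin 2) ℝ) : Matrix (Fin 2) (Fin 2) ℝ).det := by
    rw [← Matrix.GeneralLinearGroup.val_det_apply]; simp
  have h1 : HasDerivAt (fun z : ℂ => (((δ : GL (Fin 2) ℝ) • ofComplex z : ℍ) : ℂ))
      ((((δ : GL (Fin 2) ℝ) : Matrix (Fin 2) (Fin 2) ℝ).det : ℂ) /
        denom (δ : GL (Fin 2) ℝ) τ ^ 2) (τ : ℂ) :=
    (hasStrictDerivAt_smul hdet τ).hasDerivAt
  have h3 : HasDerivAt (F ∘ ofComplex) (g (δ • τ))
      ((fun z : ℂ => (((δ : GL (Fin 2) ℝ) • ofComplex z : ℍ) : ℂ)) (τ : ℂ)) := by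
    simp only [ofComplex_apply]
    exact hF (δ • τ)
  have h4 := h3.comp (τ : ℂ) h1
  have hfun : ((fun τ : ℍ => F (δ • τ)) ∘ ofComplex)
      = (F ∘ ofComplex) ∘ fun z : ℂ => (((δ : GL (Fin 2) ℝ) • ofComplex z : ℍ) : ℂ) := by
    funext z
    simp [Function.comp_def]
  rw [hfun]
  convert! h4 using 1
  rw [SL_slash_apply, show ((δ : GL (Fin 2) ℝ) : Matrix (Fin 2) (Fin 2) ℝ).det = 1 by
    rw [← Matrix.GeneralLinearGroup.val_det_apply]; simp]
  simp [zpow_neg]

/-- A periodic holomorphic function vanishing at `i∞` has a periodic primitive vanishing there. -/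
theorem exists_primitive {g : ℍ → ℂ} {h : ℝ} (hh : 0 < h)
    (hper : Function.Periodic (g ∘ ofComplex) h) (hhol : MDiff g) (hz : IsZeroAtImInfty g) :
    ∃ F : ℍ → ℂ, IsPrimitive F g ∧ Tendsto F atImInfty (𝓝 0) := by
  set C := cuspFunction h g
  have hd : DifferentiableOn ℂ C (Metric.ball 0 1) :=
    differentiableOn_cuspFunction_ball hh hper hhol hz.isBoundedAtImInfty
  have hC0 : C 0 = 0 := hz.cuspFunction_apply_zero hh
  have hd' : DifferentiableOn ℂ (dslope C 0) (Metric.ball 0 1) :=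
    (Complex.differentiableOn_dslope (Metric.ball_mem_nhds 0 one_pos)).mpr hd
  obtain ⟨P, hP0, hP⟩ := hd'.isExactOn_ball.with_val_at 0 0
  set q : ℂ → ℂ := Function.Periodic.qParam h
  set c : ℂ := (h : ℂ) / (2 * Real.pi * Complex.I)
  refine ⟨fun τ => c * P (q τ), fun τ => ?_, ?_⟩
  · have hq : HasDerivAt q (q τ * (2 * Real.pi * Complex.I / h)) (τ : ℂ) := by
      have hq0 := ((hasDerivAt_id (τ : ℂ)).const_mul (2 * (Real.pi : ℂ) * Complex.I)).div_const (h : ℂ)
      have hq1 := hq0.cexp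
      simp only [mul_one, id_eq] at hq1
      exact hq1
    have hqb : q τ ∈ Metric.ball (0 : ℂ) 1 := by
      simpa using Function.Periodic.norm_qParam_lt_one hh τ.im_pos
    have h1 := ((hP (q τ) hqb).comp (τ : ℂ) hq).const_mul c
    have hval : g τ = c * (dslope C 0 (q τ) * (q τ * (2 * Real.pi * Complex.I / h))) := by
      have hne : q τ ≠ 0 := Complex.exp_ne_zero _
      rw [dslope_of_ne _ hne, slope_def_field, hC0,
        show C (q τ) = g τ from eq_cuspFunction τ hh.ne' hper]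
      have hh' : (h : ℂ) ≠ 0 := by exact_mod_cast hh.ne'
      simp only [c, sub_zero]
      field_simp
    rw [hval]
    refine h1.congr_of_eventuallyEq ?_
    filter_upwards [isOpen_upperHalfPlaneSet.mem_nhds τ.im_pos] with z hz'
    simp [ofComplex_apply_of_im_pos hz']
  · have hcont : ContinuousAt P 0 := (hP 0 (Metric.mem_ball_self one_pos)).continuousAt
    have := (hcont.tendsto.comp (qParam_tendsto_atImInfty hh)).const_mul c
    simpa [hP0, Function.comp_def] using this

variable {N : ℕ} [NeZero N]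

omit [NeZero N] in
theorem Gamma_le_Gamma0' : Gamma N ≤ Gamma0 N := fun _ hγ =>
  Gamma0_mem.mpr (Gamma_mem.mp hγ).2.2.1

theorem conj_T_pow_mem (N : ℕ) [NeZero N] (δ : SL(2, ℤ)) :
    δ * ModularGroup.T ^ (N : ℤ) * δ⁻¹ ∈ Gamma0 N := by
  refine Gamma_le_Gamma0' ((Gamma_normal N).conj_mem _ ?_ δ)
  rw [Gamma_mem, ModularGroup.coe_T_zpow]
  simp

theorem periodic_slash {w : ℤ} {f : ℍ → ℂ} (hf : f ∈ forms N w) (δ : SL(2, ℤ)) :
    Function.Periodic ((f ∣[w] δ) ∘ ofComplex) ((N : ℤ) : ℝ) := by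
  intro z
  have h : (f ∣[w] δ) ∣[w] (ModularGroup.T ^ (N : ℤ)) = f ∣[w] δ := by
    rw [← SlashAction.slash_mul,
      show δ * ModularGroup.T ^ (N : ℤ) = (δ * ModularGroup.T ^ (N : ℤ) * δ⁻¹) * δ by group,
      SlashAction.slash_mul, hf.1 _ (conj_T_pow_mem N δ)]
  by_cases hz : 0 < z.im
  · have hz1 : 0 < (z + ((N : ℤ) : ℝ)).im := by simpa using hz
    simp only [Function.comp_apply, ofComplex_apply_of_im_pos hz, ofComplex_apply_of_im_pos hz1]
    have h2 := congrFun h ⟨z, hz⟩
    rw [SL_slash_apply, modular_T_zpow_smul] at h2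
    have hd : denom ((ModularGroup.T ^ (N : ℤ) : SL(2, ℤ)) : GL (Fin 2) ℝ) (⟨z, hz⟩ : ℍ) = 1 := by
      show (((ModularGroup.T ^ (N : ℤ) : SL(2, ℤ)).1 1 0 : ℤ) : ℝ) * z
        + (((ModularGroup.T ^ (N : ℤ) : SL(2, ℤ)).1 1 1 : ℤ) : ℝ) = (1 : ℂ)
      rw [ModularGroup.coe_T_zpow]
      simp
    rw [hd, one_zpow, mul_one] at h2
    rw [← h2]
    refine congrArg _ (UpperHalfPlane.ext ?_)
    simp [add_comm]
  · have hz1 : (z + ((N : ℤ) : ℝ)).im ≤ 0 := by simpa using hz
    simp only [Function.comp_apply, ofComplex_apply_of_im_nonpos hz1,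
      ofComplex_apply_of_im_nonpos (not_lt.mp hz)]

/-- Primitives of a weight two cusp form have limits at every cusp. -/
theorem exists_tendsto_comp_smul {f F : ℍ → ℂ} (hf : f ∈ cuspForms N 2) (hF : IsPrimitive F f)
    (δ : SL(2, ℤ)) : ∃ L : ℂ, Tendsto (fun w : ℍ => F (δ • w)) atImInfty (𝓝 L) := by
  obtain ⟨G, hG, hG0⟩ := exists_primitive (g := f ∣[(2 : ℤ)] δ)
    (h := ((N : ℤ) : ℝ)) (by exact_mod_cast Nat.pos_of_ne_zero (NeZero.ne N))
    (periodic_slash hf.1 δ) (hf.1.2.1.slash 2 _) (hf.2 δ)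
  obtain ⟨c, hc⟩ := (hF.comp_smul δ).exists_eq_add hG
  exact ⟨0 + c, (hG0.add_const c).congr fun w => (hc w).symm⟩

omit [NeZero N] in
theorem isEquivariantPrimitive {f F : ℍ → ℂ} (hf : f ∈ cuspForms N 2) (hF : IsPrimitive F f) :
    IsEquivariantPrimitive (Gamma0 N) F := by
  intro γ
  have h := hF.comp_smul (γ : SL(2, ℤ))
  rw [hf.1.1 _ γ.2] at h
  obtain ⟨c, hc⟩ := h.exists_eq_add hF
  exact ⟨c, fun z => by rw [hc z]; ring⟩

theorem exists_hasEquivariantPrimitive (f : CuspForm (Gamma0 N) 2) :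
    ∃ F, HasEquivariantPrimitive N f F := by
  have hf := coe_mem_cuspForms f
  have qf := isQFun_of_mem hf.1
  obtain ⟨F, hF, hF0⟩ := exists_primitive one_pos qf.periodic qf.mdiff
    (by simpa using hf.2 1)
  exact ⟨F, hF, hF0, isEquivariantPrimitive hf hF, exists_tendsto_comp_smul hf hF⟩

/-- The period map is computed by any primitive. -/
theorem periodMap_apply (f : CuspForm (Gamma0 N) 2) {F : ℍ → ℂ} (hF : IsPrimitive F ⇑f)
    (γ : Gamma0 N) (z : ℍ) :
    periodMap N f (Additive.ofMul γ) = F ((γ : SL(2, ℤ)) • z) - F z := by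
  obtain ⟨F₁, hF₁⟩ := exists_hasEquivariantPrimitive f
  obtain ⟨F₀, h₀, heq⟩ := periodMap_def N f hF₁
  obtain ⟨c, hc⟩ := IsPrimitive.exists_eq_add h₀.1 hF
  rw [heq, IsEquivariantPrimitive.periodHom_apply, ← h₀.2.2.1.sub_eq_period γ z, hc, hc]
  ring

theorem periodMap_add (f g : CuspForm (Gamma0 N) 2) :
    periodMap N (f + g) = periodMap N f + periodMap N g := by
  obtain ⟨F, hF⟩ := exists_hasEquivariantPrimitive f
  obtain ⟨G, hG⟩ := exists_hasEquivariantPrimitive g
  refine AddMonoidHom.ext fun γ => ?_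
  induction γ using Additive.rec with
  | _ γ =>
    rw [AddMonoidHom.add_apply, periodMap_apply (f + g) (IsPrimitive.add hF.1 hG.1) γ I,
      periodMap_apply f hF.1 γ I, periodMap_apply g hG.1 γ I]
    simp only [Pi.add_apply]
    ring

theorem periodMap_smul (c : ℂ) (f : CuspForm (Gamma0 N) 2) :
    periodMap N (c • f) = c • periodMap N f := by
  obtain ⟨F, hF⟩ := exists_hasEquivariantPrimitive f
  refine AddMonoidHom.ext fun γ => ?_
  induction γ using Additive.rec with
  | _ γ =>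
    rw [AddMonoidHom.smul_apply, periodMap_apply (c • f) (IsPrimitive.const_smul c hF.1) γ I,
      periodMap_apply f hF.1 γ I]
    simp only [Pi.smul_apply, smul_eq_mul]
    ring

theorem existsPeriodMapLinear : ExistsPeriodMapLinear N :=
  ⟨{ toFun := periodMap N, map_add' := periodMap_add, map_smul' := periodMap_smul }, fun _ => rfl⟩

/-- An element of trace `±2` is conjugate to `± T ^ m`. -/
theorem exists_conj_eq_of_trace_sq {γ : SL(2, ℤ)} (h : (γ : Matrix (Fin 2) (Fin 2) ℤ).trace ^ 2 = 4) :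
    ∃ (δ : SL(2, ℤ)) (m : ℤ), γ * δ = δ * ModularGroup.T ^ m ∨
      γ * δ = -(δ * ModularGroup.T ^ m) := by
  set a := γ.1 0 0 with ha
  set b := γ.1 0 1 with hb
  set c := γ.1 1 0 with hc
  set d := γ.1 1 1 with hd
  have hdet : a * d - b * c = 1 := by
    rw [ha, hb, hc, hd, ← Matrix.det_fin_two]; exact γ.2
  rw [Matrix.trace_fin_two] at h
  obtain ⟨ε, hε, hεtr⟩ : ∃ ε : ℤ, ε ^ 2 = 1 ∧ a + d = 2 * ε := by
    have : (a + d - 2) * (a + d + 2) = 0 := by linear_combination h
    rcases mul_eq_zero.mp this with h' | h'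
    · exact ⟨1, by norm_num, by linarith⟩
    · exact ⟨-1, by norm_num, by linarith⟩
  -- a primitive fixed vector
  obtain ⟨p, r, hpr, he1, he2⟩ : ∃ p r : ℤ, IsCoprime p r ∧ (a - ε) * p + b * r = 0 ∧
      c * p + (d - ε) * r = 0 := by
    by_cases hb0 : b = 0
    · refine ⟨0, 1, isCoprime_zero_left.mpr isUnit_one, by simp [hb0], ?_⟩
      rw [hb0, zero_mul, sub_zero] at hdet
      have h1 : (a - ε) * (d - ε) = 0 := by linear_combination hdet - ε * hεtr - hε
      have h2 : a - ε + (d - ε) = 0 := by linarith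
      rcases mul_eq_zero.mp h1 with h3 | h3 <;> simp <;> linarith
    · have hg : 0 < Int.gcd b (ε - a) :=
        Nat.pos_of_ne_zero fun hh => hb0 (Int.gcd_eq_zero_iff.mp hh).1
      obtain ⟨p, r, hpr, hp, hr⟩ := Int.exists_gcd_one hg
      set g : ℤ := ((Int.gcd b (ε - a) : ℕ) : ℤ)
      have hg' : g ≠ 0 := by simp [g]; omega
      refine ⟨p, r, Int.isCoprime_iff_gcd_eq_one.mpr hpr, ?_, ?_⟩
      · refine mul_right_cancel₀ hg' ?_
        linear_combination -(a - ε) * hp - b * hr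
      · refine mul_right_cancel₀ hg' ?_
        linear_combination -c * hp - (d - ε) * hr - hdet + ε * hεtr + hε
  obtain ⟨u, v, huv⟩ := hpr
  set δ : SL(2, ℤ) := ⟨!![p, -v; r, u], by rw [Matrix.det_fin_two_of]; linarith [mul_comm u p]⟩
    with hδ
  -- the upper right entry of the conjugate, times `ε`
  set m := ε * (u * (a * -v + b * u) + v * (c * -v + d * u)) with hm
  refine ⟨δ, m, ?_⟩
  have hr1 : (a - ε) * p + b * r = 0 := he1
  have key : (γ.1 * δ.1) = !![ε * p, ε * (p * m - v); ε * r, ε * (r * m + u)] := by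
    have e00 : a * p + b * r = ε * p := by linear_combination he1
    have e10 : c * p + d * r = ε * r := by linear_combination he2
    have hε2 : ε * ε = 1 := by linear_combination hε
    have e01 : a * -v + b * u = ε * (p * m - v) := by
      rw [hm]
      linear_combination (-(a * -v + b * u) - v * ε) * huv
        - p * (u * (a * -v + b * u) + v * (c * -v + d * u)) * hε2
        + v * u * he1 + v ^ 2 * he2 - v * (u * p + v * r) * hεtr
    have e11 : c * -v + d * u = ε * (r * m + u) := by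
      rw [hm]
      linear_combination (-(c * -v + d * u) + u * ε) * huv
        - r * (u * (a * -v + b * u) + v * (c * -v + d * u)) * hε2
        - u ^ 2 * he1 - u * v * he2 + u * (u * p + v * r) * hεtr
    ext i j
    fin_cases i <;> fin_cases j <;>
      simp [Matrix.mul_apply, Fin.sum_univ_two, hδ, ← ha, ← hb, ← hc, ← hd] <;> linarith
  rcases sq_eq_one_iff.mp hε with hε1 | hε1
  · left
    apply Subtype.ext
    rw [Matrix.SpecialLinearGroup.coe_mul, Matrix.SpecialLinearGroup.coe_mul, key,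
      ModularGroup.coe_T_zpow]
    ext i j
    fin_cases i <;> fin_cases j <;>
      simp [Matrix.mul_apply, Fin.sum_univ_two, hδ, hε1] <;> ring
  · right
    apply Subtype.ext
    rw [Matrix.SpecialLinearGroup.coe_neg, Matrix.SpecialLinearGroup.coe_mul,
      Matrix.SpecialLinearGroup.coe_mul, key, ModularGroup.coe_T_zpow]
    ext i j
    fin_cases i <;> fin_cases j <;>
      simp [Matrix.mul_apply, Fin.sum_univ_two, hδ, hε1] <;> ring

/-- Periods of cusp forms are parabolic homomorphisms. -/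
theorem periodMap_mem_parabolicHoms (f : CuspForm (Gamma0 N) 2) :
    periodMap N f ∈ parabolicHoms ℂ (Gamma0 N) ℂ := by
  rw [mem_parabolicHoms_iff]
  intro γ hγ
  obtain ⟨F, hF⟩ := exists_hasEquivariantPrimitive f
  obtain ⟨δ, m, hδ⟩ := exists_conj_eq_of_trace_sq hγ
  obtain ⟨L, hL⟩ := hF.2.2.2 δ
  have hmove : ∀ w : ℍ, (γ : SL(2, ℤ)) • (δ • w) = δ • (ModularGroup.T ^ m • w) := by
    intro w
    rcases hδ with h | h
    · rw [← mul_smul, h, mul_smul]
    · rw [← mul_smul, h, ModularGroup.SL_neg_smul, mul_smul]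
  have hT : Tendsto (fun w : ℍ => ModularGroup.T ^ m • w) atImInfty atImInfty := by
    simp only [modular_T_zpow_smul]
    refine tendsto_comap_iff.mpr ?_
    simpa [Function.comp_def, atImInfty] using (tendsto_comap : Tendsto UpperHalfPlane.im (comap UpperHalfPlane.im atTop) atTop)
  have h1 : Tendsto (fun w : ℍ => periodMap N f (Additive.ofMul γ)) atImInfty (𝓝 (L - L)) := by
    refine ((hL.comp hT).sub hL).congr fun w => ?_
    rw [periodMap_apply f hF.1 γ (δ • w), hmove]
    rfl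
  rw [sub_self] at h1
  exact tendsto_const_nhds_iff.mp h1

end FA.Period
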