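import Fermat.Agent.Period.Primitive

/-!
# Injectivity of the map of pairs of periods
-/

set_option autoImplicit false

namespace FA.Period

open UpperHalfPlane ModularForm CongruenceSubgroup Filter ModularCurve ModularCurve.Period
open scoped MatrixGroups Manifold Topology ComplexConjugate

variable {N : ℕ} [NeZero N]

/-- Maximum principle on the compactified modular curve. -/
theorem eq_const_of_norm_invariant {G : ℍ → ℂ} (hG : MDiff G)
    (hinv : ∀ γ ∈ Gamma0 N, ∀ τ : ℍ, ‖G (γ • τ)‖ = ‖G τ‖)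
    (hper : ∀ δ : SL(2, ℤ), Function.Periodic ((fun w => G (δ • w)) ∘ ofComplex) ((N : ℤ) : ℝ))
    (hbdd : ∀ δ : SL(2, ℤ), IsBoundedAtImInfty (fun w => G (δ • w))) :
    ∀ τ τ', G τ = G τ' := by
  classical
  let Q := SL(2, ℤ) ⧸ Gamma0 N
  have : Fintype Q := Subgroup.fintypeQuotientOfFiniteIndex
  set h : ℝ := ((N : ℤ) : ℝ) with hh_def
  have hh : 0 < h := by simp [h, Nat.pos_of_ne_zero (NeZero.ne N)]
  let K : Q → ℂ → ℂ := fun q => cuspFunction h (fun w => G ((Quotient.out q)⁻¹ • w))
  have hmd : ∀ δ : SL(2, ℤ), MDiff (fun w => G (δ • w)) := fun δ => by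
    have h0 := hG.slash 0 (δ : GL (Fin 2) ℝ)
    have : (fun w => G (δ • w)) = G ∣[(0 : ℤ)] δ := by
      funext w; simp [SL_slash_apply]
    rw [this]; exact h0
  have hK : ∀ q, DifferentiableOn ℂ (K q) (Metric.ball 0 1) := fun q =>
    differentiableOn_cuspFunction_ball hh (hper _) (hmd _) (hbdd _)
  have hKq : ∀ q (w : ℍ), K q (Function.Periodic.qParam h w) = G ((Quotient.out q)⁻¹ • w) :=
    fun q w => eq_cuspFunction w hh.ne' (hper _)
  set r₀ := Real.exp (-(Real.pi / h))
  have hr₀ : r₀ < 1 := Real.exp_lt_one_iff.mpr (by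
    have : 0 < Real.pi / h := by positivity
    linarith)
  have hsub : Metric.closedBall (0 : ℂ) r₀ ⊆ Metric.ball 0 1 := Metric.closedBall_subset_ball hr₀
  have hmax : ∀ q, ∃ x ∈ Metric.closedBall (0 : ℂ) r₀,
      ∀ y ∈ Metric.closedBall (0 : ℂ) r₀, ‖K q y‖ ≤ ‖K q x‖ := fun q =>
    (isCompact_closedBall (0 : ℂ) r₀).exists_isMaxOn
      ⟨0, Metric.mem_closedBall_self (Real.exp_pos _).le⟩
      (((hK q).mono hsub).continuousOn.norm)
  choose x hx hxmax using hmax
  obtain ⟨q₀, -, hq₀⟩ := Finset.exists_max_image (Finset.univ : Finset Q)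
    (fun q => ‖K q (x q)‖) ⟨QuotientGroup.mk 1, Finset.mem_univ _⟩
  set M := ‖K q₀ (x q₀)‖
  have hGM : ∀ τ : ℍ, ‖G τ‖ ≤ M := by
    intro τ
    obtain ⟨g, hg⟩ := ModularGroup.exists_smul_mem_fd τ
    obtain ⟨⟨g', hg'⟩, hout⟩ := QuotientGroup.mk_out_eq_mul (Gamma0 N) g
    set q : Q := QuotientGroup.mk g
    have hτ : ‖G ((Quotient.out q)⁻¹ • (g • τ))‖ = ‖G τ‖ := by
      have hmem : g'⁻¹ ∈ Gamma0 N := inv_mem hg'
      rw [hout, mul_inv_rev, mul_smul, inv_smul_smul, hinv _ hmem]
    have hy : Function.Periodic.qParam h ((g • τ : ℍ) : ℂ) ∈ Metric.closedBall (0 : ℂ) r₀ := by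
      rw [mem_closedBall_zero_iff, Function.Periodic.norm_qParam]
      refine Real.exp_le_exp.mpr ?_
      have h3 := ModularGroup.three_le_four_mul_im_sq_of_mem_fd hg
      have hpos := (g • τ).im_pos
      have him : (1 : ℝ) / 2 ≤ (g • τ).im := by nlinarith
      have hc : Real.pi / h * 1 ≤ Real.pi / h * (2 * (g • τ).im) :=
        mul_le_mul_of_nonneg_left (by linarith) (by positivity)
      simp only [UpperHalfPlane.coe_im]
      calc -2 * Real.pi * (g • τ).im / h = -(Real.pi / h * (2 * (g • τ).im)) := by ring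
        _ ≤ -(Real.pi / h) := by linarith
    rw [← hτ, ← hKq]
    exact (hxmax q _ hy).trans (hq₀ q (Finset.mem_univ q))
  have hKM : ∀ y ∈ Metric.ball (0 : ℂ) 1, ‖K q₀ y‖ ≤ M := by
    intro y hy
    by_cases hy' : y ∈ Metric.closedBall (0 : ℂ) r₀
    · exact hxmax q₀ y hy'
    have hy0 : y ≠ 0 := fun h0 => hy' (by
      rw [h0]; exact Metric.mem_closedBall_self (Real.exp_pos _).le)
    have him := Function.Periodic.im_invQParam_pos_of_norm_lt_one hh (mem_ball_zero_iff.mp hy) hy0
    have := hKq q₀ ⟨_, him⟩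
    rw [Function.Periodic.qParam_right_inv hh.ne' hy0] at this
    rw [this]
    exact hGM _
  have hconst := Complex.eqOn_of_isPreconnected_of_isMaxOn_norm
    (convex_ball (0 : ℂ) 1).isPreconnected Metric.isOpen_ball (hK q₀) (hsub (hx q₀))
    (fun y hy => hKM y hy)
  intro τ τ'
  have key : ∀ σ : ℍ, G σ = K q₀ (x q₀) := fun σ => by
    have h1 := hKq q₀ (Quotient.out q₀ • σ)
    rw [inv_smul_smul] at h1
    rw [← h1]
    exact hconst (mem_ball_zero_iff.mpr (Function.Periodic.norm_qParam_lt_one hh (UpperHalfPlane.im_pos _)))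
  rw [key τ, key τ']

/-- A primitive with real periods and with limits at all cusps is constant. -/
theorem const_of_real_periods {X g : ℍ → ℂ} (hX : IsPrimitive X g)
    (hper : ∀ γ ∈ Gamma0 N, ∃ r : ℝ, ∀ τ : ℍ, X (γ • τ) - X τ = r)
    (hlim : ∀ δ : SL(2, ℤ), ∃ L : ℂ, Tendsto (fun w : ℍ => X (δ • w)) atImInfty (𝓝 L)) :
    g = 0 := by
  set G : ℍ → ℂ := fun τ => Complex.exp (Complex.I * X τ)
  have hGp : IsPrimitive G (fun τ => G τ * (Complex.I * g τ)) := fun τ => by
    have h := ((hX τ).const_mul Complex.I).cexp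
    simp only [Function.comp_apply, ofComplex_apply] at h
    exact h
  have hperX : ∀ δ : SL(2, ℤ),
      Function.Periodic ((fun w => X (δ • w)) ∘ ofComplex) ((N : ℤ) : ℝ) := by
    intro δ
    obtain ⟨L, hL⟩ := hlim δ
    obtain ⟨r, hr⟩ := hper _ (conj_T_pow_mem N δ)
    have hstep : ∀ w : ℍ, X (δ • (ModularGroup.T ^ (N : ℤ) • w)) - X (δ • w) = r := fun w => by
      rw [← hr (δ • w)]
      congr 2
      simp only [← mul_smul]
      congr 1
      group
    have hT : Tendsto (fun w : ℍ => ModularGroup.T ^ (N : ℤ) • w) atImInfty atImInfty := by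
      simp only [modular_T_zpow_smul]
      refine tendsto_comap_iff.mpr ?_
      simpa [Function.comp_def, atImInfty] using
        (tendsto_comap : Tendsto UpperHalfPlane.im (comap UpperHalfPlane.im atTop) atTop)
    have hr0 : (r : ℂ) = 0 := by
      have h1 : Tendsto (fun _ : ℍ => (r : ℂ)) atImInfty (𝓝 (L - L)) :=
        ((hL.comp hT).sub hL).congr fun w => hstep w
      rw [sub_self] at h1
      exact tendsto_const_nhds_iff.mp h1
    intro z
    by_cases hz : 0 < z.im
    · have hz1 : 0 < (z + ((N : ℤ) : ℝ)).im := by simpa using hz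
      simp only [Function.comp_apply, ofComplex_apply_of_im_pos hz, ofComplex_apply_of_im_pos hz1]
      have h2 := hstep ⟨z, hz⟩
      rw [hr0, sub_eq_zero, modular_T_zpow_smul] at h2
      rw [← h2]
      refine congrArg (fun w : ℍ => X (δ • w)) (UpperHalfPlane.ext ?_)
      simp [add_comm]
    · have hz1 : (z + ((N : ℤ) : ℝ)).im ≤ 0 := by simpa using hz
      simp only [Function.comp_apply, ofComplex_apply_of_im_nonpos hz1,
        ofComplex_apply_of_im_nonpos (not_lt.mp hz)]
  have hconst := eq_const_of_norm_invariant (N := N) (G := G) hGp.mdiff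
    (fun γ hγ τ => by
      obtain ⟨r, hr⟩ := hper γ hγ
      simp only [G, Complex.norm_exp]
      rw [show X (γ • τ) = X τ + r by rw [← hr τ]; ring]
      simp)
    (fun δ z => by
      have h := hperX δ z
      simp only [Function.comp_apply] at h
      simp only [G, Function.comp_apply, h])
    (fun δ => by
      obtain ⟨L, hL⟩ := hlim δ
      exact ((Complex.continuous_exp.tendsto _).comp (hL.const_mul Complex.I)).isBigO_one ℝ)
  have h0 := hGp.eq_zero_of_const (c := G I) (fun τ => hconst τ I)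
  funext τ
  simpa [G, Complex.exp_ne_zero] using congrFun h0 τ

/-- Reflection `τ ↦ -τ̄` of the upper half-plane. -/
noncomputable def reflect (τ : ℍ) : ℍ := ⟨-conj (τ : ℂ), by simpa using τ.im_pos⟩

theorem reflect_smul (γ : SL(2, ℤ)) (τ : ℍ) :
    reflect (γ • τ) = jConjSL γ • reflect τ := by
  refine UpperHalfPlane.ext ?_
  rw [coe_specialLinearGroup_apply]
  show -conj ((γ • τ : ℍ) : ℂ) = _
  rw [coe_specialLinearGroup_apply]
  simp only [reflect, jConjSL_coe, jConjMat_apply_zero_zero, jConjMat_apply_zero_one,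
    jConjMat_apply_one_zero, jConjMat_apply_one_one, algebraMap_int_eq, eq_intCast, map_div₀,
    map_add, map_mul, Complex.conj_ofReal]
  push_cast
  rw [← neg_div]
  ring

theorem tendsto_reflect : Tendsto reflect atImInfty atImInfty := by
  refine tendsto_comap_iff.mpr ?_
  have h : UpperHalfPlane.im ∘ reflect = UpperHalfPlane.im := funext fun τ => by
    simp [reflect, ← UpperHalfPlane.coe_im]
  rw [h]
  exact tendsto_comap

/-- The reflected primitive. -/
noncomputable def reflPrim (F : ℍ → ℂ) (τ : ℍ) : ℂ := -conj (F (reflect τ))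

theorem isPrimitive_reflPrim {F g : ℍ → ℂ} (hF : IsPrimitive F g) :
    IsPrimitive (reflPrim F) (fun τ => conj (g (reflect τ))) := by
  intro τ
  have h := hF (reflect τ)
  have hcoe : ((reflect τ : ℍ) : ℂ) = -conj (τ : ℂ) := rfl
  rw [hcoe] at h
  have h1 : HasDerivAt (fun z => (F ∘ ofComplex) (-z)) (-(g (reflect τ))) (conj (τ : ℂ)) := by
    simpa [Function.comp_def] using h.scomp (conj (τ : ℂ)) ((hasDerivAt_id (conj (τ : ℂ))).neg)
  have h2 := h1.conj_conj
  rw [Complex.conj_conj] at h2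
  have h3 := h2.neg
  simp only [map_neg, neg_neg] at h3
  refine h3.congr_of_eventuallyEq ?_
  filter_upwards [isOpen_upperHalfPlaneSet.mem_nhds τ.im_pos] with z hz
  have hz' : 0 < (-conj z).im := by simpa using hz
  simp [reflPrim, reflect, ofComplex_apply_of_im_pos hz, ofComplex_apply_of_im_pos hz']

/-- **Injectivity of the Eichler–Shimura period map.** -/
theorem periodHomPair_injective : Function.Injective (periodHomPair N) := by
  obtain ⟨pml, hpml, hdef⟩ := periodHomPair_def N existsPeriodMapLinear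
  refine (injective_iff_map_eq_zero _).mpr fun fg h0 => ?_
  obtain ⟨f, g⟩ := fg
  rw [hdef] at h0
  obtain ⟨U, hU⟩ := exists_hasEquivariantPrimitive (f + g)
  obtain ⟨V, hV⟩ := exists_hasEquivariantPrimitive (f - g)
  have hUp : IsPrimitive U ⇑(f + g) := hU.1
  set W := reflPrim V
  have hW : IsPrimitive W _ := isPrimitive_reflPrim hV.1
  have hrel : ∀ γ ∈ Gamma0 N, ∀ τ : ℍ, W (γ • τ) - W τ = conj (U (γ • τ) - U τ) := by
    intro γ hγ τ
    have h1 := DFunLike.congr_fun h0 (Additive.ofMul (⟨γ, hγ⟩ : Gamma0 N))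
    simp only [LinearMap.coprod_apply, LinearMap.comp_apply, LinearMap.add_apply,
      LinearMap.sub_apply, LinearMap.id_apply, AddMonoidHom.add_apply, AddMonoidHom.sub_apply,
      charInvolution_apply, toMul_ofMul, AddMonoidHom.zero_apply] at h1
    have hp := periodMap_apply (f + g) hU.1 ⟨γ, hγ⟩ τ
    rw [← hpml, map_add, AddMonoidHom.add_apply] at hp
    have hm := periodMap_apply (f - g) hV.1 (jConjGamma0 N ⟨γ, hγ⟩) (reflect τ)
    rw [← hpml, map_sub, AddMonoidHom.sub_apply, jConjGamma0_coe,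
      ← reflect_smul γ τ] at hm
    have h2 : U (γ • τ) - U τ = -(V (reflect (γ • τ)) - V (reflect τ)) := by
      linear_combination h1 - hp - hm
    simp only [W, reflPrim]
    rw [h2, map_neg, map_sub]
    ring
  have hWlim : ∀ δ : SL(2, ℤ), ∃ L : ℂ, Tendsto (fun w : ℍ => W (δ • w)) atImInfty (𝓝 L) := by
    intro δ
    obtain ⟨L, hL⟩ := hV.2.2.2 (jConjSL δ)
    refine ⟨-conj L, ?_⟩
    refine (((Complex.continuous_conj.tendsto _).comp (hL.comp tendsto_reflect)).neg).congr
      fun w => ?_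
    simp only [W, reflPrim, Function.comp_apply, reflect_smul]
  have hsum := const_of_real_periods (N := N) (X := U + W) (hUp.add hW) (fun γ hγ => by
      refine ⟨2 * (U (γ • I) - U I).re, fun τ => ?_⟩
      have hc := hU.2.2.1.sub_eq_period ⟨γ, hγ⟩
      have : U (γ • τ) - U τ = U (γ • I) - U I := (hc τ).trans (hc I).symm
      rw [Pi.add_apply, Pi.add_apply, Complex.ofReal_mul, Complex.ofReal_ofNat,
        Complex.re_eq_add_conj, ← this]
      linear_combination hrel γ hγ τ) (fun δ => by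
      obtain ⟨L, hL⟩ := hU.2.2.2 δ
      obtain ⟨L', hL'⟩ := hWlim δ
      exact ⟨L + L', hL.add hL'⟩)
  have hdiff := const_of_real_periods (N := N) (X := Complex.I • (U + (-1 : ℂ) • W))
      ((hUp.add (hW.const_smul (-1 : ℂ))).const_smul Complex.I) (fun γ hγ => by
      refine ⟨-2 * (U (γ • I) - U I).im, fun τ => ?_⟩
      have hc := hU.2.2.1.sub_eq_period ⟨γ, hγ⟩
      have : U (γ • τ) - U τ = U (γ • I) - U I := (hc τ).trans (hc I).symm
      simp only [Pi.smul_apply, Pi.add_apply, smul_eq_mul]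
      rw [Complex.ofReal_mul, Complex.ofReal_neg, Complex.ofReal_ofNat,
        Complex.im_eq_sub_conj, ← this]
      have h2 := hrel γ hγ τ
      field_simp
      linear_combination (U (γ • τ) - U τ - conj (U (γ • τ) - U τ)) * Complex.I_sq - h2 * Complex.I ^ 2)
      (fun δ => by
      obtain ⟨L, hL⟩ := hU.2.2.2 δ
      obtain ⟨L', hL'⟩ := hWlim δ
      exact ⟨_, (hL.add (hL'.const_smul (-1 : ℂ))).const_smul Complex.I⟩)
  have hfg : ∀ τ : ℍ, (f + g) τ = 0 ∧ (f - g) τ = 0 := by
    have ha : ∀ τ : ℍ, (f + g) τ = 0 ∧ conj ((f - g) (reflect τ)) = 0 := fun τ => by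
      have a := congrFun hsum τ
      have b := congrFun hdiff τ
      simp only [Pi.add_apply, Pi.smul_apply, smul_eq_mul, Pi.zero_apply, mul_eq_zero,
        Complex.I_ne_zero, false_or] at a b
      constructor
      · linear_combination (a + b) / 2
      · linear_combination (a - b) / 2
    intro τ
    have hrr : reflect (reflect τ) = τ := UpperHalfPlane.ext (by simp [reflect])
    have h2 := (ha (reflect τ)).2
    rw [hrr, map_eq_zero] at h2
    exact ⟨(ha τ).1, h2⟩
  refine Prod.ext ?_ ?_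
  · ext τ
    have h := hfg τ
    rw [add_apply, sub_apply] at h
    simp only [Prod.fst_zero, zero_apply]
    linear_combination (h.1 + h.2) / 2
  · ext τ
    have h := hfg τ
    rw [add_apply, sub_apply] at h
    simp only [Prod.snd_zero, zero_apply]
    linear_combination (h.1 - h.2) / 2

/-- The periods of pairs are parabolic homomorphisms. -/
theorem range_periodHomPair_le :
    LinearMap.range (periodHomPair N) ≤ parabolicHoms ℂ (Gamma0 N) ℂ := by
  obtain ⟨pml, hpml, hdef⟩ := periodHomPair_def N existsPeriodMapLinear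
  rintro _ ⟨⟨f, g⟩, rfl⟩
  have hm : ∀ u, pml u ∈ parabolicHoms ℂ (Gamma0 N) ℂ := fun u => by
    rw [hpml]; exact periodMap_mem_parabolicHoms u
  rw [hdef, LinearMap.coprod_apply]
  exact add_mem (add_mem (hm f) (charInvolution_mem_parabolicHoms N ℂ ℂ (hm f)))
    (sub_mem (hm g) (charInvolution_mem_parabolicHoms N ℂ ℂ (hm g)))

end FA.Period
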