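import Fermat.Agent.Period.Rational

/-!
# Level-one forms are spanned by forms with rational `q`-expansions
-/

set_option autoImplicit false

namespace FA.Period

open UpperHalfPlane ModularForm EisensteinSeries
open scoped MatrixGroups

theorem bddDenom_E₄ : BddDenom (qExp ⇑E₄) := by
  refine ⟨1, one_ne_zero,
    PowerSeries.mk fun n => if n = 0 then 1 else 240 * (ArithmeticFunction.sigma 3 n : ℤ), ?_⟩
  ext n
  rw [PowerSeries.coeff_map, PowerSeries.coeff_mk, Nat.cast_one, one_smul,
    E_qExpansion_coeff _ ⟨2, rfl⟩ n]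
  have h4 : bernoulli 4 = -1 / 30 := by decide +kernel
  split_ifs with h
  · simp
  · rw [h4]; push_cast; norm_num

theorem bddDenom_E₆ : BddDenom (qExp ⇑E₆) := by
  refine ⟨1, one_ne_zero,
    PowerSeries.mk fun n => if n = 0 then 1 else -504 * (ArithmeticFunction.sigma 5 n : ℤ), ?_⟩
  ext n
  rw [PowerSeries.coeff_map, PowerSeries.coeff_mk, Nat.cast_one, one_smul,
    E_qExpansion_coeff _ ⟨3, rfl⟩ n]
  have h6 : bernoulli 6 = 1 / 42 := by decide +kernel
  split_ifs with h
  · simp
  · rw [h6]; push_cast; norm_num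

theorem E₄_mem_ratForms : ⇑E₄ ∈ ratForms 1 4 :=
  mem_ratForms_of (coe_mem_forms_one E₄) bddDenom_E₄

theorem E₆_mem_ratForms : ⇑E₆ ∈ ratForms 1 6 :=
  mem_ratForms_of (coe_mem_forms_one E₆) bddDenom_E₆

theorem coe_discriminant_mem_forms : ModularForm.discriminant ∈ forms 1 12 :=
  mem_forms_one_of
    (fun γ => SlashInvariantForm.slash_action_generators_SL2Z discriminant_S_invariant discriminant_T_invariant γ)
    (CuspFormClass.holo CuspForm.discriminant)
    discriminant_isZeroAtImInfty.isBoundedAtImInfty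

theorem bddDenom_discriminant : BddDenom (qExp ModularForm.discriminant) := by
  have hA := isQFun_of_mem (coe_mem_forms_one E₄)
  have hB := isQFun_of_mem (coe_mem_forms_one E₆)
  have h : ModularForm.discriminant
      = ((1 / 1728 : ℚ) : ℂ) • (⇑E₄ ^ 3 + ((-1 : ℚ) : ℂ) • ⇑E₆ ^ 2) := by
    funext z
    simp only [discriminant_eq_E₄_cube_sub_E₆_sq, Pi.smul_apply, Pi.add_apply, Pi.pow_apply,
      smul_eq_mul]
    push_cast
    ring
  rw [h, ((hA.pow 3).add ((hB.pow 2).smul _)).qExp_smul, (hA.pow 3).qExp_add ((hB.pow 2).smul _),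
    (hB.pow 2).qExp_smul, hA.qExp_pow, hB.qExp_pow]
  exact ((bddDenom_E₄.pow 3).add ((bddDenom_E₆.pow 2).rat_smul _)).rat_smul _

theorem discriminant_mem_ratForms : ModularForm.discriminant ∈ ratForms 1 12 :=
  mem_ratForms_of coe_discriminant_mem_forms bddDenom_discriminant

/-- Modular forms of level one of negative weight vanish. -/
theorem forms_one_eq_zero_of_neg {w : ℤ} (hw : w < 0) {f : ℍ → ℂ} (hf : f ∈ forms 1 w) : f = 0 := by
  exact ModularFormClass.levelOne_neg_weight_eq_zero hw (toModularForm' f hf)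

theorem forms_one_le_ratForms : ∀ (n : ℕ) (w : ℤ), w < n → forms 1 w ≤ ratForms 1 w := by
  intro n
  induction n with
  | zero =>
    intro w hw f hf
    rw [forms_one_eq_zero_of_neg (by simpa using hw) hf]
    exact zero_mem _
  | succ n ih =>
    intro w hw f hf
    push_cast at hw
    rcases lt_or_ge w 0 with hneg | hnn
    · rw [forms_one_eq_zero_of_neg hneg hf]; exact zero_mem _
    lift w to ℕ using hnn
    rcases Nat.even_or_odd w with hev | hodd
    swap
    · have h0 := congrArg DFunLike.coe
        (ModularForm.levelOne_odd_weight_eq_zero (by exact_mod_cast hodd) (toModularForm' f hf))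
      rw [show f = 0 from h0]; exact zero_mem _
    by_cases hw2 : w = 2
    · subst hw2
      have h0 := congrArg DFunLike.coe
        (rank_zero_iff_forall_zero.mp levelOne_weight_two_rank_zero (toModularForm' f hf))
      rw [show f = 0 from h0]; exact zero_mem _
    obtain ⟨a, b, hab⟩ : ∃ a b : ℕ, 4 * a + 6 * b = w := by
      obtain ⟨m, rfl⟩ := hev
      rcases Nat.even_or_odd m with ⟨a, rfl⟩ | ⟨a, rfl⟩
      · exact ⟨a, 0, by ring⟩
      · exact ⟨a - 1, 1, by omega⟩
    set M : ℍ → ℂ := ⇑E₄ ^ a * ⇑E₆ ^ b with hM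
    have hMr : M ∈ ratForms 1 w := by
      have := mul_mem_ratForms (pow_mem_ratForms E₄_mem_ratForms a)
        (pow_mem_ratForms E₆_mem_ratForms b)
      convert this using 2
      rw [← hab]; push_cast; ring
    have hA := isQFun_of_mem (coe_mem_forms_one E₄)
    have hB := isQFun_of_mem (coe_mem_forms_one E₆)
    have hM0 : (qExp M).coeff 0 = 1 := by
      rw [hM, (hA.pow a).qExp_mul (hB.pow b), hA.qExp_pow, hB.qExp_pow,
        PowerSeries.coeff_zero_eq_constantCoeff, map_mul, map_pow, map_pow,
        ← PowerSeries.coeff_zero_eq_constantCoeff, E_qExpansion_coeff_zero _ ⟨2, rfl⟩,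
        E_qExpansion_coeff_zero _ ⟨3, rfl⟩]
      simp
    set c := (qExp f).coeff 0
    set g := f - c • M with hg
    have hgf : g ∈ forms 1 w := sub_mem hf (Submodule.smul_mem _ _ (ratForms_le _ _ hMr))
    have hg0 : (qExp g).coeff 0 = 0 := by
      rw [hg, (isQFun_of_mem hf).qExp_sub ((isQFun_of_mem_ratForms hMr).smul _),
        (isQFun_of_mem_ratForms hMr).qExp_smul]
      simp [hM0, c, -PowerSeries.coeff_zero_eq_constantCoeff]
    set g' := CuspForm.discriminantEquiv (ModularForm.toCuspForm (toModularForm' g hgf) hg0)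
    have hg' : g = ModularForm.discriminant * ⇑g' :=
      (discriminant_mul_discriminantEquiv
        (ModularForm.toCuspForm (toModularForm' g hgf) hg0)).symm
    have hg'r : ⇑g' ∈ ratForms 1 ((w : ℤ) - 12) := ih _ (by omega) (coe_mem_forms_one g')
    have hgr : g ∈ ratForms 1 w := by
      rw [hg']
      convert mul_mem_ratForms discriminant_mem_ratForms hg'r using 2
      ring
    have hfe : f = g + c • M := by simp [hg]
    rw [hfe]
    exact add_mem hgr (Submodule.smul_mem _ _ hMr)

/-- Every level-one form is a combination of forms with rational `q`-expansion. -/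
theorem mem_ratForms_one {w : ℤ} {f : ℍ → ℂ} (hf : f ∈ forms 1 w) : f ∈ ratForms 1 w :=
  forms_one_le_ratForms (w.toNat + 1) w (by have := Int.self_le_toNat w; omega) hf

end FA.Period
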