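import Fermat.Agent.Period.Twist

/-!
# Conjugates of a form over the cosets of `Γ₀(N)`: the monic equation and Lagrange interpolation
-/

set_option autoImplicit false

namespace FA.Period

open UpperHalfPlane ModularForm CongruenceSubgroup Filter
open scoped MatrixGroups Manifold Topology

abbrev CosetSpace (N : ℕ) : Type := SL(2, ℤ) ⧸ Gamma0 N

noncomputable instance cosetFintype (N : ℕ) [NeZero N] : Fintype (CosetSpace N) :=
  Subgroup.fintypeQuotientOfFiniteIndex

/-- The translate of `f` attached to a coset. -/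
noncomputable def conj {N : ℕ} (w : ℤ) (f : ℍ → ℂ) (q : CosetSpace N) : ℍ → ℂ :=
  f ∣[w] (Quotient.out q)⁻¹

section Conj

variable {N : ℕ} {w : ℤ} {f : ℍ → ℂ}

theorem conj_mk (hf : f ∈ forms N w) (g : SL(2, ℤ)) :
    conj w f (QuotientGroup.mk g : CosetSpace N) = f ∣[w] g⁻¹ := by
  obtain ⟨⟨h, hh⟩, hout⟩ := QuotientGroup.mk_out_eq_mul (Gamma0 N) g
  rw [conj, hout, mul_inv_rev, SlashAction.slash_mul, hf.1 _ (inv_mem hh)]

theorem conj_slash (hf : f ∈ forms N w) (γ : SL(2, ℤ)) (q : CosetSpace N) :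
    conj w f q ∣[w] γ = conj w f (γ⁻¹ • q) := by
  induction q using QuotientGroup.induction_on with
  | _ g => rw [MulAction.Quotient.smul_mk, conj_mk hf, conj_mk hf, ← SlashAction.slash_mul,
      smul_eq_mul, mul_inv_rev, inv_inv]

theorem conj_one (hf : f ∈ forms N w) :
    conj w f (QuotientGroup.mk 1 : CosetSpace N) = f := by
  rw [conj_mk hf, inv_one, SlashAction.slash_one]

theorem mdiff_conj (hf : f ∈ forms N w) (q : CosetSpace N) : MDiff (conj w f q) :=
  hf.2.1.slash w _

theorem bdd_conj (hf : f ∈ forms N w) (q : CosetSpace N) : IsBoundedAtImInfty (conj w f q) :=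
  hf.2.2 _

theorem prod_conj_slash (hf : f ∈ forms N w) (γ : SL(2, ℤ)) (S : Finset (CosetSpace N)) :
    (∏ q ∈ S, conj w f q) ∣[(S.card : ℤ) * w] γ = ∏ q ∈ S, conj w f (γ⁻¹ • q) := by
  classical
  induction S using Finset.induction_on with
  | empty => simpa using is_invariant_one γ
  | @insert a s ha ih =>
    rw [Finset.prod_insert ha, Finset.prod_insert ha, Finset.card_insert_of_notMem ha,
      show ((s.card + 1 : ℕ) : ℤ) * w = w + (s.card : ℤ) * w by push_cast; ring, mul_slash_SL2,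
      conj_slash hf, ih]

end Conj

theorem bdd_prod {ι : Type*} (s : Finset ι) {g : ι → ℍ → ℂ}
    (h : ∀ i ∈ s, IsBoundedAtImInfty (g i)) : IsBoundedAtImInfty (∏ i ∈ s, g i) :=
  Finset.prod_induction g IsBoundedAtImInfty (fun _ _ ha hb => ha.mul hb)
    (Filter.const_boundedAtFilter _ _) h

theorem bdd_sum {ι : Type*} (s : Finset ι) {g : ι → ℍ → ℂ}
    (h : ∀ i ∈ s, IsBoundedAtImInfty (g i)) : IsBoundedAtImInfty (∑ i ∈ s, g i) :=
  Finset.sum_induction g IsBoundedAtImInfty (fun _ _ ha hb => ha.add hb)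
    (Filter.const_boundedAtFilter _ _) h

theorem mdiff_prod {ι : Type*} (s : Finset ι) {g : ι → ℍ → ℂ}
    (h : ∀ i ∈ s, MDiff (g i)) : MDiff (∏ i ∈ s, g i) :=
  Finset.prod_induction g (fun u => MDiff u) (fun _ _ ha hb => ha.mul hb)
    mdifferentiable_const h

theorem mdiff_sum {ι : Type*} (s : Finset ι) {g : ι → ℍ → ℂ}
    (h : ∀ i ∈ s, MDiff (g i)) : MDiff (∑ i ∈ s, g i) :=
  Finset.sum_induction g (fun u => MDiff u) (fun _ _ ha hb => ha.add hb)
    mdifferentiable_const h

/-- Expansion of `∏ (x - g i)` by the number of factors `g i`. -/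
theorem prod_sub_eq_sum {ι R : Type*} [CommRing R] (s : Finset ι) (x : R) (g : ι → R) :
    ∏ i ∈ s, (x - g i) = ∑ j ∈ Finset.range (s.card + 1),
      ((-1 : R) ^ j * ∑ S ∈ s.powersetCard j, ∏ i ∈ S, g i) * x ^ (s.card - j) := by
  classical
  simp only [show ∀ i, x - g i = -g i + x from fun i => by ring]
  rw [Finset.prod_add, Finset.sum_powerset]
  refine Finset.sum_congr rfl fun j _ => ?_
  rw [Finset.mul_sum, Finset.sum_mul]
  refine Finset.sum_congr rfl fun S hS => ?_
  obtain ⟨hSs, hSc⟩ := Finset.mem_powersetCard.mp hS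
  rw [Finset.prod_neg, Finset.prod_const, Finset.card_sdiff_of_subset hSs, hSc]

variable {N : ℕ} [NeZero N] {k : ℤ} {f : ℍ → ℂ}

/-- Elementary symmetric function of degree `j` of the conjugates. -/
noncomputable def conjEsymm (k : ℤ) (f : ℍ → ℂ) (j : ℕ) : ℍ → ℂ :=
  ∑ S ∈ (Finset.univ : Finset (CosetSpace N)).powersetCard j, ∏ q ∈ S, conj k f q

theorem conjEsymm_mem (hf : f ∈ forms N k) (j : ℕ) :
    conjEsymm (N := N) k f j ∈ forms 1 ((j : ℤ) * k) := by
  classical
  refine mem_forms_one_of (fun γ => ?_)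
    (mdiff_sum _ fun S _ => mdiff_prod _ fun q _ => mdiff_conj hf q)
    (bdd_sum _ fun S _ => bdd_prod _ fun q _ => bdd_conj hf q)
  rw [conjEsymm, SlashAction.sum_slash]
  refine Finset.sum_equiv (MulAction.toPerm (γ⁻¹ : SL(2, ℤ)) :
      Equiv.Perm (CosetSpace N)).finsetCongr (fun S => ?_) (fun S hS => ?_)
  · simp [Finset.mem_powersetCard]
  · rw [← (Finset.mem_powersetCard.mp hS).2, prod_conj_slash hf, Equiv.finsetCongr_apply,
      Finset.prod_map]
    rfl

theorem conjEsymm_zeroAtImInfty (hf : f ∈ cuspForms N k) {j : ℕ} (hj : j ≠ 0) :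
    IsZeroAtImInfty (conjEsymm (N := N) k f j) := by
  classical
  have key : ∀ S ∈ (Finset.univ : Finset (CosetSpace N)).powersetCard j,
      IsZeroAtImInfty (∏ q ∈ S, conj k f q) := by
    intro S hS
    obtain ⟨a, ha⟩ : S.Nonempty :=
      Finset.card_pos.mp (by rw [(Finset.mem_powersetCard.mp hS).2]; omega)
    rw [← Finset.mul_prod_erase S _ ha]
    have h1 : IsZeroAtImInfty (conj k f a) := hf.2 _
    have h2 : IsBoundedAtImInfty (∏ q ∈ S.erase a, conj k f q) :=
      bdd_prod _ fun q _ => bdd_conj hf.1 q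
    have h3 := ((Asymptotics.isLittleO_one_iff ℝ).mpr h1).mul_isBigO h2
    refine (Asymptotics.isLittleO_one_iff ℝ).mp ?_
    simpa [Pi.mul_def, Finset.prod_fn] using h3
  simpa [IsZeroAtImInfty, ZeroAtFilter, conjEsymm, Finset.sum_fn] using tendsto_finsetSum _ key

/-- A form is a root of a monic polynomial whose coefficients are forms of level one. -/
theorem exists_monic_equation (hf : f ∈ cuspForms N k) :
    ∃ (n : ℕ) (e : ℕ → ℍ → ℂ), 0 < n ∧ e 0 = 1 ∧ (∀ j : ℕ, e j ∈ forms 1 ((j : ℤ) * k)) ∧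
      (∀ j : ℕ, j ≠ 0 → IsZeroAtImInfty (e j)) ∧
      ∑ j ∈ Finset.range (n + 1), e j * f ^ (n - j) = 0 := by
  classical
  refine ⟨(Finset.univ : Finset (CosetSpace N)).card,
    fun j => (-1 : ℍ → ℂ) ^ j * conjEsymm (N := N) k f j,
    Finset.card_pos.mpr ⟨QuotientGroup.mk 1, Finset.mem_univ _⟩, by simp [conjEsymm],
    fun j => ?_, fun j hj => ?_, ?_⟩
  · have : (-1 : ℍ → ℂ) ^ j * conjEsymm (N := N) k f j
        = ((-1 : ℂ) ^ j) • conjEsymm (N := N) k f j := by
      funext z; simp
    beta_reduce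
    rw [this]
    exact Submodule.smul_mem _ _ (conjEsymm_mem hf.1 j)
  · have h := (conjEsymm_zeroAtImInfty hf hj).const_mul ((-1 : ℂ) ^ j)
    simpa [IsZeroAtImInfty, ZeroAtFilter, Pi.mul_def] using h
  · have h := prod_sub_eq_sum (Finset.univ : Finset (CosetSpace N)) f (conj k f)
    rw [Finset.prod_eq_zero (Finset.mem_univ (QuotientGroup.mk 1 : CosetSpace N))
      (by rw [conj_one hf.1, sub_self])] at h
    exact h.symm

/-- The coefficients occurring in the interpolation formula. -/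
noncomputable def interpCoeff (k : ℤ) (f : ℍ → ℂ) (j : ℕ) : ℍ → ℂ :=
  open scoped Classical in
  ∑ q : CosetSpace N, conj k f q *
    ∑ S ∈ ((Finset.univ : Finset (CosetSpace N)).erase q).powersetCard j,
      ∏ i ∈ S, conj 12 (twistDelta N) i

theorem interpCoeff_mem (hf : f ∈ forms N k) (j : ℕ) :
    interpCoeff (N := N) k f j ∈ forms 1 (k + (j : ℤ) * 12) := by
  classical
  have hF := twistDelta_mem_forms (NeZero.ne N)
  refine mem_forms_one_of (fun γ => ?_)
    (mdiff_sum _ fun q _ => (mdiff_conj hf q).mul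
      (mdiff_sum _ fun S _ => mdiff_prod _ fun i _ => mdiff_conj hF i))
    (bdd_sum _ fun q _ => (bdd_conj hf q).mul
      (bdd_sum _ fun S _ => bdd_prod _ fun i _ => bdd_conj hF i))
  rw [interpCoeff, SlashAction.sum_slash]
  refine Finset.sum_equiv (MulAction.toPerm (γ⁻¹ : SL(2, ℤ)) : Equiv.Perm (CosetSpace N))
    (fun q => by simp) (fun q _ => ?_)
  rw [mul_slash_SL2, conj_slash hf, SlashAction.sum_slash]
  refine congrArg₂ (· * ·) rfl (Finset.sum_equiv (MulAction.toPerm (γ⁻¹ : SL(2, ℤ)) :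
      Equiv.Perm (CosetSpace N)).finsetCongr (fun S => ?_) (fun S hS => ?_))
  · simp [Finset.mem_powersetCard, Finset.subset_erase]
  · rw [← (Finset.mem_powersetCard.mp hS).2, prod_conj_slash hF, Equiv.finsetCongr_apply,
      Finset.prod_map]
    rfl

/-- The fixed multiplier `∏_{δ ≠ 1} (F - F|δ)`. -/
noncomputable def interpDenom (N : ℕ) [NeZero N] : ℍ → ℂ :=
  open scoped Classical in
  ∏ q ∈ (Finset.univ : Finset (CosetSpace N)).erase (QuotientGroup.mk 1),
    (twistDelta N - conj 12 (twistDelta N) q)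

theorem interp_identity (hf : f ∈ forms N k) :
    f * interpDenom N = ∑ j ∈ Finset.range (Fintype.card (CosetSpace N)),
      ((-1 : ℍ → ℂ) ^ j * interpCoeff (N := N) k f j) *
        twistDelta N ^ (Fintype.card (CosetSpace N) - 1 - j) := by
  classical
  have hF := twistDelta_mem_forms (NeZero.ne N)
  set F := twistDelta N with hFdef
  set o : CosetSpace N := QuotientGroup.mk 1
  have h1 : f * interpDenom N = ∑ q : CosetSpace N, conj k f q *
      ∏ i ∈ (Finset.univ : Finset (CosetSpace N)).erase q, (F - conj 12 F i) := by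
    rw [Finset.sum_eq_single o]
    · rw [conj_one hf]; rfl
    · intro q _ hq
      rw [Finset.prod_eq_zero (Finset.mem_erase.mpr ⟨Ne.symm hq, Finset.mem_univ o⟩)
        (by rw [conj_one hF, sub_self]), mul_zero]
    · simp
  have hcard : ∀ q : CosetSpace N, ((Finset.univ : Finset (CosetSpace N)).erase q).card
      = Fintype.card (CosetSpace N) - 1 := fun q => by simp
  have hpos : 0 < Fintype.card (CosetSpace N) := Fintype.card_pos_iff.mpr ⟨o⟩
  rw [h1]
  simp only [prod_sub_eq_sum, hcard, Nat.sub_add_cancel hpos, Finset.mul_sum]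
  rw [Finset.sum_comm]
  refine Finset.sum_congr rfl fun j _ => ?_
  rw [interpCoeff, Finset.mul_sum, Finset.sum_mul]
  refine Finset.sum_congr rfl fun q _ => ?_
  rw [hFdef, Finset.sum_mul, Finset.mul_sum, Finset.mul_sum, Finset.mul_sum, Finset.sum_mul]
  exact Finset.sum_congr rfl fun S _ => by ring

theorem mul_interpDenom_mem (hf : f ∈ forms N k) :
    f * interpDenom N ∈ ratForms N (k + 12 * ((Fintype.card (CosetSpace N) : ℤ) - 1)) := by
  rw [interp_identity hf]
  refine Submodule.sum_mem _ fun j hj => ?_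
  rw [Finset.mem_range] at hj
  have h1 := mul_mem_ratForms (ratForms_one_le N _ (mem_ratForms_one (interpCoeff_mem hf j)))
    (pow_mem_ratForms (twistDelta_mem_ratForms (NeZero.ne N))
      (Fintype.card (CosetSpace N) - 1 - j))
  have h2 := Submodule.smul_mem _ ((-1 : ℂ) ^ j) h1
  convert h2 using 1
  · congr 1
    rw [Nat.cast_sub (by omega), Nat.cast_sub (by omega)]
    push_cast; ring
  · funext z; simp [mul_assoc]

theorem interpDenom_mem :
    interpDenom N ∈ ratForms N (12 * ((Fintype.card (CosetSpace N) : ℤ) - 1)) := by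
  simpa using mul_interpDenom_mem (N := N) one_mem_forms

theorem interpDenom_ne_zero : interpDenom N ≠ 0 := by
  classical
  have hF := twistDelta_mem_forms (NeZero.ne N)
  intro h
  rw [interpDenom, prod_eq_zero_iff (fun q _ => hF.2.1.sub (mdiff_conj hF q))] at h
  obtain ⟨q, hq, h0⟩ := h
  refine (Finset.mem_erase.mp hq).1 ?_
  have hmem := mem_Gamma0_of_twistDelta_slash_eq (NeZero.ne N) (sub_eq_zero.mp h0).symm
  rw [← Quotient.out_eq q]
  exact QuotientGroup.eq.mpr (by simpa using inv_mem_iff.mp hmem)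

end FA.Period
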