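import Fermat.Agent.Period.AutC

/-!
# Descent to `ℚ` for spaces of sequences stable under the automorphisms of `ℂ`
-/

set_option autoImplicit false

namespace FA.Period

variable {ι : Type*}

/-- A sequence is rational if all its entries are rational. -/
def IsRationalSeq (v : ι → ℂ) : Prop := ∀ i, ∃ r : ℚ, v i = r

theorem span_rational_of_stable (W : Submodule ℂ (ι → ℂ))
    (hW : ∀ σ : ℂ ≃+* ℂ, ∀ w ∈ W, (fun i => σ (w i)) ∈ W)
    (J : Finset ι) (hJ : ∀ w ∈ W, (∀ i ∈ J, w i = 0) → w = 0) :
    W ≤ Submodule.span ℂ {w | w ∈ W ∧ IsRationalSeq w} := by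
  classical
  set W₀ := Submodule.span ℂ {w | w ∈ W ∧ IsRationalSeq w}
  suffices ∀ S : Finset ι, ∀ w ∈ W, (∀ i ∈ J, w i ≠ 0 → i ∈ S) → w ∈ W₀ from
    fun w hw => this J w hw fun i hi _ => hi
  intro S
  induction S using Finset.strongInduction with
  | _ S ih =>
    intro w hw hsupp
    by_cases hw0 : w = 0
    · simp [hw0]
    obtain ⟨j, hjJ, hj⟩ : ∃ j ∈ J, w j ≠ 0 := by
      by_contra! hcon
      exact hw0 (hJ w hw hcon)
    have hjS := hsupp j hjJ hj
    set u := (w j)⁻¹ • w with hu
    have huW : u ∈ W := W.smul_mem _ hw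
    have huj : u j = 1 := by simp [hu, hj]
    have husupp : ∀ i ∈ J, u i ≠ 0 → i ∈ S := fun i hi hne =>
      hsupp i hi fun h0 => hne (by simp [hu, h0])
    have hW₀W : W₀ ≤ W := Submodule.span_le.mpr fun v hv => hv.1
    suffices u ∈ W₀ by
      have h2 := W₀.smul_mem (w j) this
      rwa [hu, smul_smul, mul_inv_cancel₀ hj, one_smul] at h2
    by_cases hv : ∃ v ∈ W₀, v ≠ 0 ∧ ∀ i ∈ J, v i ≠ 0 → i ∈ S
    · obtain ⟨v, hv0, hvne, hvS⟩ := hv
      obtain ⟨l, hlJ, hl⟩ : ∃ l ∈ J, v l ≠ 0 := by
        by_contra! hcon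
        exact hvne (hJ v (hW₀W hv0) hcon)
      have hlS := hvS l hlJ hl
      have h1 : u - (u l / v l) • v ∈ W₀ := by
        refine ih (S.erase l) (Finset.erase_ssubset hlS) _
          (W.sub_mem huW (W.smul_mem _ (hW₀W hv0))) fun i hi hne => ?_
        refine Finset.mem_erase.mpr ⟨?_, ?_⟩
        · rintro rfl
          simp [hl] at hne
        · by_contra hiS
          have a : u i = 0 := by
            by_contra h0
            exact hiS (husupp i hi h0)
          have b : v i = 0 := by
            by_contra h0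
            exact hiS (hvS i hi h0)
          simp [a, b] at hne
      simpa using W₀.add_mem h1 (W₀.smul_mem (u l / v l) hv0)
    · push Not at hv
      refine Submodule.subset_span ⟨huW, fun i => exists_rat_of_forall_ringEquiv_fixed _ fun σ => ?_⟩
      set d := (fun i => σ (u i)) - u with hd
      have hsmall : ∀ i ∈ J, d i ≠ 0 → i ∈ S.erase j := fun i hi hne => by
        refine Finset.mem_erase.mpr ⟨?_, husupp i hi fun h0 => hne (by simp [hd, h0])⟩
        rintro rfl
        simp [hd, huj] at hne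
      have hdW₀ : d ∈ W₀ :=
        ih _ (Finset.erase_ssubset hjS) d (W.sub_mem (hW σ u huW) huW) hsmall
      by_cases hd0 : d = 0
      · simpa [hd, sub_eq_zero] using congrFun hd0 i
      · obtain ⟨l, hlJ, hl, hlS⟩ := hv d hdW₀ hd0
        exact absurd (Finset.mem_of_mem_erase (hsmall l hlJ hl)) hlS

end FA.Period
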