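import Fermat.Agent.Period.Forms

/-!
# Forms with rational `q`-expansions of bounded denominator
-/

set_option autoImplicit false

namespace FA.Period

open UpperHalfPlane
open scoped MatrixGroups

/-- A complex power series with rational coefficients of bounded denominator. -/
def BddDenom (φ : PowerSeries ℂ) : Prop :=
  ∃ D : ℕ, D ≠ 0 ∧ ∃ ψ : PowerSeries ℤ, (D : ℂ) • φ = PowerSeries.map (Int.castRingHom ℂ) ψ

namespace BddDenom

variable {φ χ : PowerSeries ℂ}

theorem one : BddDenom 1 := ⟨1, one_ne_zero, 1, by simp⟩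

theorem of_map (ψ : PowerSeries ℤ) : BddDenom (PowerSeries.map (Int.castRingHom ℂ) ψ) :=
  ⟨1, one_ne_zero, ψ, by simp⟩

theorem mul (hφ : BddDenom φ) (hχ : BddDenom χ) : BddDenom (φ * χ) := by
  obtain ⟨D, hD, a, ha⟩ := hφ
  obtain ⟨E, hE, b, hb⟩ := hχ
  exact ⟨D * E, mul_ne_zero hD hE, a * b, by
    rw [map_mul, ← ha, ← hb, smul_mul_smul_comm]; push_cast; rfl⟩

theorem add (hφ : BddDenom φ) (hχ : BddDenom χ) : BddDenom (φ + χ) := by
  obtain ⟨D, hD, a, ha⟩ := hφ
  obtain ⟨E, hE, b, hb⟩ := hχ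
  refine ⟨D * E, mul_ne_zero hD hE, (E : ℤ) • a + (D : ℤ) • b, ?_⟩
  rw [map_add, map_zsmul, map_zsmul, ← ha, ← hb]
  push_cast
  rw [← Int.cast_smul_eq_zsmul ℂ, ← Int.cast_smul_eq_zsmul ℂ, smul_smul, smul_smul, smul_add]
  push_cast
  rw [mul_comm (E : ℂ) (D : ℂ)]

theorem rat_smul (r : ℚ) (hφ : BddDenom φ) : BddDenom ((r : ℂ) • φ) := by
  obtain ⟨D, hD, a, ha⟩ := hφ
  refine ⟨r.den * D, mul_ne_zero r.den_nz hD, r.num • a, ?_⟩
  rw [map_zsmul, ← ha, ← Int.cast_smul_eq_zsmul ℂ, smul_smul, smul_smul]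
  congr 1
  have h : (r : ℂ) * (r.den : ℂ) = (r.num : ℂ) := by exact_mod_cast r.mul_den_eq_num
  push_cast
  rw [← h]
  ring

theorem pow (hφ : BddDenom φ) : ∀ n : ℕ, BddDenom (φ ^ n)
  | 0 => by simpa using one
  | n + 1 => by simpa [pow_succ] using (hφ.pow n).mul hφ

end BddDenom

/-- The span of the forms with rational `q`-expansion of bounded denominator. -/
def ratForms (N : ℕ) (w : ℤ) : Submodule ℂ (ℍ → ℂ) :=
  Submodule.span ℂ {g | g ∈ forms N w ∧ BddDenom (qExp g)}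

variable {N : ℕ} {w w' : ℤ} {f g : ℍ → ℂ}

theorem ratForms_le (N : ℕ) (w : ℤ) : ratForms N w ≤ forms N w :=
  Submodule.span_le.mpr fun _ hg => hg.1

theorem isQFun_of_mem_ratForms (hf : f ∈ ratForms N w) : IsQFun f :=
  isQFun_of_mem (ratForms_le N w hf)

theorem mem_ratForms_of (hg : g ∈ forms N w) (hq : BddDenom (qExp g)) : g ∈ ratForms N w :=
  Submodule.subset_span ⟨hg, hq⟩

theorem ratForms_one_le (N : ℕ) (w : ℤ) : ratForms 1 w ≤ ratForms N w :=
  Submodule.span_mono fun _ hg => ⟨forms_one_le N w hg.1, hg.2⟩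

theorem mul_mem_ratForms (hf : f ∈ ratForms N w) (hg : g ∈ ratForms N w') :
    f * g ∈ ratForms N (w + w') := by
  have h := Submodule.mul_mem_mul hf hg
  rw [ratForms, ratForms, Submodule.span_mul_span] at h
  refine Submodule.span_mono ?_ h
  rintro _ ⟨a, ha, b, hb, rfl⟩
  exact ⟨mul_mem_forms ha.1 hb.1, by
    rw [(isQFun_of_mem ha.1).qExp_mul (isQFun_of_mem hb.1)]; exact ha.2.mul hb.2⟩

theorem one_mem_ratForms : (1 : ℍ → ℂ) ∈ ratForms N 0 :=
  mem_ratForms_of one_mem_forms (by rw [qExp, qExpansion_one]; exact BddDenom.one)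

theorem pow_mem_ratForms (hf : f ∈ ratForms N w) : ∀ n : ℕ, f ^ n ∈ ratForms N (n * w)
  | 0 => by simpa using one_mem_ratForms
  | n + 1 => by
    have := mul_mem_ratForms (pow_mem_ratForms hf n) hf
    rw [← pow_succ] at this
    convert this using 2
    push_cast; ring

/-- Applying a field endomorphism to the coefficients preserves the span of rational forms. -/
theorem exists_conjugate_ratForms (σ : ℂ →+* ℂ) (hf : f ∈ ratForms N w) :
    ∃ f' ∈ ratForms N w, qExp f' = PowerSeries.map σ (qExp f) := by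
  induction hf using Submodule.span_induction with
  | mem g hg =>
    refine ⟨g, Submodule.subset_span hg, ?_⟩
    obtain ⟨D, hD, ψ, hψ⟩ := hg.2
    ext n
    have h := congrArg (PowerSeries.coeff n) hψ
    simp only [PowerSeries.coeff_smul, smul_eq_mul, PowerSeries.coeff_map,
      eq_intCast] at h
    have hD' : (D : ℂ) ≠ 0 := Nat.cast_ne_zero.mpr hD
    rw [PowerSeries.coeff_map]
    refine mul_left_cancel₀ hD' ?_
    nth_rw 2 [← map_natCast σ D]
    rw [← map_mul, h, map_intCast]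
  | zero => exact ⟨0, zero_mem _, by simp [qExpansion_zero]⟩
  | add a b ha hb iha ihb =>
    obtain ⟨a', ha', qa⟩ := iha
    obtain ⟨b', hb', qb⟩ := ihb
    exact ⟨a' + b', add_mem ha' hb', by
      rw [(isQFun_of_mem_ratForms ha').qExp_add (isQFun_of_mem_ratForms hb'),
        (isQFun_of_mem_ratForms ha).qExp_add (isQFun_of_mem_ratForms hb), map_add, qa, qb]⟩
  | smul c a ha iha =>
    obtain ⟨a', ha', qa⟩ := iha
    refine ⟨σ c • a', Submodule.smul_mem _ _ ha', ?_⟩
    rw [(isQFun_of_mem_ratForms ha').qExp_smul, (isQFun_of_mem_ratForms ha).qExp_smul,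
      PowerSeries.smul_eq_C_mul, PowerSeries.smul_eq_C_mul, map_mul, PowerSeries.map_C, qa]

/-! ### Applying a `ℚ`-linear functional to the coefficients -/

/-- Apply a `ℚ`-linear functional coefficientwise. -/
noncomputable def coeffwise (φ : ℂ →ₗ[ℚ] ℚ) (x : PowerSeries ℂ) : PowerSeries ℚ :=
  PowerSeries.mk fun n => φ (x.coeff n)

@[simp] theorem coeff_coeffwise (φ : ℂ →ₗ[ℚ] ℚ) (x : PowerSeries ℂ) (n : ℕ) :
    (coeffwise φ x).coeff n = φ (x.coeff n) := by simp [coeffwise]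

theorem coeffwise_add (φ : ℂ →ₗ[ℚ] ℚ) (x y : PowerSeries ℂ) :
    coeffwise φ (x + y) = coeffwise φ x + coeffwise φ y := by ext; simp

theorem coeffwise_zero (φ : ℂ →ₗ[ℚ] ℚ) : coeffwise φ 0 = 0 := by ext; simp

theorem coeffwise_mul (φ : ℂ →ₗ[ℚ] ℚ) (x : PowerSeries ℂ) (y : PowerSeries ℚ) :
    coeffwise φ (x * PowerSeries.map (algebraMap ℚ ℂ) y) = coeffwise φ x * y := by
  ext n
  simp only [coeff_coeffwise, PowerSeries.coeff_mul, PowerSeries.coeff_map, map_sum]
  refine Finset.sum_congr rfl fun p _ => ?_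
  rw [mul_comm, ← Algebra.smul_def, map_smul, smul_eq_mul, mul_comm]

/-- Rational power series of bounded denominator. -/
def BddDenomRat (x : PowerSeries ℚ) : Prop :=
  ∃ D : ℕ, D ≠ 0 ∧ ∃ ψ : PowerSeries ℤ, (D : ℚ) • x = PowerSeries.map (Int.castRingHom ℚ) ψ

theorem BddDenomRat.add {x y : PowerSeries ℚ} (hx : BddDenomRat x) (hy : BddDenomRat y) :
    BddDenomRat (x + y) := by
  obtain ⟨D, hD, a, ha⟩ := hx
  obtain ⟨E, hE, b, hb⟩ := hy
  refine ⟨D * E, mul_ne_zero hD hE, E • a + D • b, ?_⟩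
  rw [map_add, map_nsmul, map_nsmul, ← ha, ← hb, ← Nat.cast_smul_eq_nsmul ℚ,
    ← Nat.cast_smul_eq_nsmul ℚ, smul_smul, smul_smul, smul_add]
  push_cast
  rw [mul_comm (E : ℚ) (D : ℚ)]

theorem bddDenomRat_coeffwise (φ : ℂ →ₗ[ℚ] ℚ) (hf : f ∈ ratForms N w) :
    BddDenomRat (coeffwise φ (qExp f)) := by
  suffices ∀ c : ℂ, BddDenomRat (coeffwise φ (c • qExp f)) by simpa using this 1
  induction hf using Submodule.span_induction with
  | mem g hg =>
    intro c
    obtain ⟨D, hD, ψ, hψ⟩ := hg.2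
    refine ⟨(φ c).den * D, mul_ne_zero (φ c).den_nz hD, PowerSeries.C (φ c).num * ψ, ?_⟩
    ext n
    have h := congrArg (PowerSeries.coeff n) hψ
    simp only [PowerSeries.coeff_smul, smul_eq_mul, PowerSeries.coeff_map, eq_intCast] at h
    set m := ψ.coeff n
    have hD' : (D : ℂ) ≠ 0 := Nat.cast_ne_zero.mpr hD
    have hc : c * (qExp g).coeff n = ((m : ℚ) / D) • c := by
      rw [Algebra.smul_def]
      rw [map_div₀, map_intCast, map_natCast]
      field_simp
      rw [← h]; ring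
    simp only [coeff_coeffwise, smul_eq_mul, hc, map_smul,
      PowerSeries.coeff_map, PowerSeries.coeff_C_mul, Int.coe_castRingHom]
    have hDQ : (D : ℚ) ≠ 0 := Nat.cast_ne_zero.mpr hD
    have hr := (φ c).mul_den_eq_num
    push_cast
    rw [← hr]
    field_simp
    simp only [m, mul_comm]
  | zero =>
    intro c
    exact ⟨1, one_ne_zero, 0, by simp [qExpansion_zero, coeffwise_zero]⟩
  | add a b ha hb iha ihb =>
    intro c
    rw [(isQFun_of_mem_ratForms ha).qExp_add (isQFun_of_mem_ratForms hb), smul_add, coeffwise_add]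
    exact (iha c).add (ihb c)
  | smul d a ha iha =>
    intro c
    rw [(isQFun_of_mem_ratForms ha).qExp_smul, smul_smul]
    exact iha _

end FA.Period
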