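import Fermat.Agent.Period.LevelOne
import Fermat.Prelude.Def_ModularForm_HeckeOperator

/-!
# The form `Δ(Nτ)` and its stabiliser in `SL₂(ℤ)`
-/

set_option autoImplicit false

namespace FA.Period

open UpperHalfPlane ModularForm CongruenceSubgroup Filter Asymptotics
open scoped MatrixGroups Manifold Topology

theorem coe_GL_apply (γ : SL(2, ℤ)) (i j : Fin 2) :
    ((γ : GL (Fin 2) ℝ) : Matrix (Fin 2) (Fin 2) ℝ) i j = (γ.1 i j : ℝ) := rfl

theorem val_coe_GL (γ : SL(2, ℤ)) :
    ((γ : GL (Fin 2) ℝ) : Matrix (Fin 2) (Fin 2) ℝ) = γ.1.map (fun x => (x : ℝ)) := rfl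

/-- A scalar multiple of `τ ↦ Δ(N τ)`. -/
noncomputable def twistDelta (N : ℕ) : ℍ → ℂ :=
  ModularForm.discriminant ∣[(12 : ℤ)] heckeDiagMatrix N

variable {N : ℕ}

/-- Factor `diag(N,1) δ` as an element of `SL₂(ℤ)` times an upper triangular matrix. -/
theorem exists_factor (hN : N ≠ 0) (δ : SL(2, ℤ)) :
    ∃ (γ : SL(2, ℤ)) (a b d : ℤ) (had : (a : ℝ) * (d : ℝ) ≠ 0), 0 < a ∧ a * d = N ∧
      heckeDiagMatrix N * (δ : GL (Fin 2) ℝ) = (γ : GL (Fin 2) ℝ) * upperTriangularGL a b d had ∧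
      (a = N → δ ∈ Gamma0 N) := by
  have hdet : δ.1 0 0 * δ.1 1 1 - δ.1 0 1 * δ.1 1 0 = 1 := by
    rw [← Matrix.det_fin_two]; exact δ.2
  set x := (N : ℤ) * δ.1 0 0 with hx
  set y := (N : ℤ) * δ.1 0 1 with hy
  set z := δ.1 1 0 with hz
  set t := δ.1 1 1 with ht
  have hg : 0 < Int.gcd x z := by
    refine Nat.pos_of_ne_zero fun h => ?_
    obtain ⟨hx0, hz0⟩ := Int.gcd_eq_zero_iff.mp h
    rcases mul_eq_zero.mp hx0 with h1 | h1
    · exact hN (by exact_mod_cast h1)
    · rw [h1, hz0] at hdet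
      simp at hdet
  obtain ⟨p, r, hpr, hxp, hzr⟩ := Int.exists_gcd_one hg
  obtain ⟨u, v, huv⟩ := Int.isCoprime_iff_gcd_eq_one.mpr hpr
  set a : ℤ := (Int.gcd x z : ℤ)
  have ha : 0 < a := by simpa [a] using hg
  let γ : SL(2, ℤ) := ⟨!![p, -v; r, u], by rw [Matrix.det_fin_two_of]; linarith [mul_comm u p]⟩
  have hdetM : x * t - y * z = N := by rw [hx, hy]; linear_combination (N : ℤ) * hdet
  have had' : a * (-r * y + p * t) = N := by
    linear_combination hdetM - t * hxp + y * hzr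
  have hd : (-r * y + p * t) ≠ 0 := fun h => by
    rw [h, mul_zero] at had'; exact hN (by exact_mod_cast had'.symm)
  refine ⟨γ, a, u * y + v * t, -r * y + p * t,
    by exact_mod_cast mul_ne_zero ha.ne' hd, ha, had', ?_, fun h => ?_⟩
  · apply Units.ext
    have hγ : ((γ : GL (Fin 2) ℝ) : Matrix (Fin 2) (Fin 2) ℝ) = !![(p : ℝ), -v; r, u] := by
      ext i j; rw [coe_GL_apply]; fin_cases i <;> fin_cases j <;> simp [γ]
    have hδ : ((δ : GL (Fin 2) ℝ) : Matrix (Fin 2) (Fin 2) ℝ)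
        = !![(δ.1 0 0 : ℝ), δ.1 0 1; δ.1 1 0, δ.1 1 1] := by
      ext i j; fin_cases i <;> fin_cases j <;> rfl
    rw [Units.val_mul, Units.val_mul, val_heckeDiagMatrix hN, hγ, hδ, val_upperTriangularGL,
      Matrix.mul_fin_two, Matrix.mul_fin_two]
    rw [hx] at hxp
    rw [hy, ht]
    have hb1 : (N : ℤ) * δ.1 0 1
        = p * (u * ((N : ℤ) * δ.1 0 1) + v * δ.1 1 1)
          + -v * (-r * ((N : ℤ) * δ.1 0 1) + p * δ.1 1 1) := by
      linear_combination -((N : ℤ) * δ.1 0 1) * huv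
    have hb2 : δ.1 1 1 = r * (u * ((N : ℤ) * δ.1 0 1) + v * δ.1 1 1)
        + u * (-r * ((N : ℤ) * δ.1 0 1) + p * δ.1 1 1) := by
      linear_combination -(δ.1 1 1) * huv
    rw [hz] at hzr
    have e1 := congrArg (Int.cast (R := ℝ)) hxp
    have e2 := congrArg (Int.cast (R := ℝ)) hzr
    have e3 := congrArg (Int.cast (R := ℝ)) hb1
    have e4 := congrArg (Int.cast (R := ℝ)) hb2
    push_cast at e1 e2 e3 e4
    ext i j; fin_cases i <;> fin_cases j <;>
      simp only [Fin.zero_eta, Fin.mk_one, Matrix.of_apply, Matrix.cons_val', Matrix.cons_val_zero,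
        Matrix.cons_val_one, Matrix.cons_val_fin_one] <;> push_cast <;> linarith
  · rw [Gamma0_mem, ZMod.intCast_zmod_eq_zero_iff_dvd, ← hz, hzr, h]
    exact dvd_mul_left _ _

theorem discriminant_slash (γ : SL(2, ℤ)) :
    ModularForm.discriminant ∣[(12 : ℤ)] (γ : GL (Fin 2) ℝ) = ModularForm.discriminant :=
  slash_eq_of_mem_forms_one coe_discriminant_mem_forms γ

theorem upperTriangularGL_apply_one_zero (a b d : ℝ) (had : a * d ≠ 0) :
    upperTriangularGL a b d had 1 0 = 0 := by simp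

theorem twistDelta_slash (hN : N ≠ 0) (δ : SL(2, ℤ)) :
    ∃ (a b d : ℤ) (had : (a : ℝ) * (d : ℝ) ≠ 0), 0 < a ∧ a * d = N ∧
      twistDelta N ∣[(12 : ℤ)] δ = ModularForm.discriminant ∣[(12 : ℤ)] upperTriangularGL a b d had ∧
      (a = N → δ ∈ Gamma0 N) := by
  obtain ⟨γ, a, b, d, had, ha, hadN, hfac, hmem⟩ := exists_factor hN δ
  refine ⟨a, b, d, had, ha, hadN, ?_, hmem⟩
  rw [SL_slash, twistDelta, ← SlashAction.slash_mul, hfac, SlashAction.slash_mul,
    discriminant_slash]

theorem twistDelta_slash_eq_self (hN : N ≠ 0) {γ : SL(2, ℤ)} (hγ : γ ∈ Gamma0 N) :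
    twistDelta N ∣[(12 : ℤ)] γ = twistDelta N := by
  obtain ⟨c', hc'⟩ : (N : ℤ) ∣ γ.1 1 0 := by
    rw [← ZMod.intCast_zmod_eq_zero_iff_dvd]; exact Gamma0_mem.mp hγ
  have hdet : γ.1 0 0 * γ.1 1 1 - γ.1 0 1 * γ.1 1 0 = 1 := by
    rw [← Matrix.det_fin_two]; exact γ.2
  let γ' : SL(2, ℤ) := ⟨!![γ.1 0 0, N * γ.1 0 1; c', γ.1 1 1], by
    rw [Matrix.det_fin_two_of]; rw [hc'] at hdet; linear_combination hdet⟩
  have h : heckeDiagMatrix N * (γ : GL (Fin 2) ℝ) = (γ' : GL (Fin 2) ℝ) * heckeDiagMatrix N := by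
    apply Units.ext
    have hcR : (γ.1 1 0 : ℝ) = (N : ℝ) * (c' : ℝ) := by exact_mod_cast hc'
    rw [Units.val_mul, Units.val_mul, val_heckeDiagMatrix hN, val_coe_GL, val_coe_GL]
    ext i j; fin_cases i <;> fin_cases j <;>
      simp [γ', Matrix.mul_apply, Fin.sum_univ_two, hcR, mul_comm]
  rw [SL_slash, twistDelta, ← SlashAction.slash_mul, h, SlashAction.slash_mul, discriminant_slash]

theorem twistDelta_mem_forms (hN : N ≠ 0) : twistDelta N ∈ forms N 12 := by
  refine ⟨fun γ hγ => twistDelta_slash_eq_self hN hγ, ?_, fun γ => ?_⟩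
  · exact (CuspFormClass.holo CuspForm.discriminant).slash 12 _
  · obtain ⟨a, b, d, had, -, -, h, -⟩ := twistDelta_slash hN γ
    rw [h]
    exact discriminant_isZeroAtImInfty.isBoundedAtImInfty.slash 12
      (upperTriangularGL_apply_one_zero _ _ _ had)

/-- `Δ(Nτ)` is fixed exactly by `Γ₀(N)`. -/
theorem mem_Gamma0_of_twistDelta_slash_eq (hN : N ≠ 0) {δ : SL(2, ℤ)}
    (h : twistDelta N ∣[(12 : ℤ)] δ = twistDelta N) : δ ∈ Gamma0 N := by
  obtain ⟨a, b, d, had, ha, hadN, hU, hmem⟩ := twistDelta_slash hN δ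
  refine hmem ?_
  by_contra hne
  set U := upperTriangularGL a b d had
  rw [h] at hU
  have hNpos : (0 : ℤ) < N := by exact_mod_cast Nat.pos_of_ne_zero hN
  have hd : 0 < d := by
    have : 0 < a * d := hadN ▸ hNpos
    exact pos_of_mul_pos_right this ha.le
  have hlt : (a : ℝ) / d < N := by
    rw [div_lt_iff₀ (by exact_mod_cast hd)]
    have : a < N * d := by
      rcases eq_or_lt_of_le (show (1 : ℤ) ≤ d from hd) with h1 | h1
      · subst h1; simp only [mul_one] at hadN; exact absurd hadN hne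
      · have : a < N := by
          calc a = a * 1 := (mul_one a).symm
            _ < a * d := Int.mul_lt_mul_of_pos_left h1 ha
            _ = N := hadN
        nlinarith
    exact_mod_cast this
  have hdR : (0 : ℝ) < d := by exact_mod_cast hd
  have haR : (0 : ℝ) < a := by exact_mod_cast ha
  have hUdet : 0 < (U.det : ℝ) := by
    simp [U, Matrix.GeneralLinearGroup.val_det_apply, Matrix.det_fin_two_of]
    positivity
  have hUim : ∀ τ : ℍ, (U • τ).im = (a : ℝ) / d * τ.im := by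
    intro τ
    rw [im_smul_eq_div_normSq]
    simp [U, Matrix.GeneralLinearGroup.val_det_apply, Matrix.det_fin_two_of, denom,
      Complex.normSq_intCast]
    rw [abs_of_pos hdR, abs_of_pos haR]
    field_simp
  have hNim : ∀ τ : ℍ, (heckeDiagMatrix N • τ).im = (N : ℝ) * τ.im := by
    intro τ
    rw [← UpperHalfPlane.coe_im, coe_heckeDiagMatrix_smul hN]
    simp
  have t1 : Tendsto (fun τ : ℍ => U • τ) atImInfty atImInfty :=
    tendsto_smul_atImInfty (upperTriangularGL_apply_one_zero _ _ _ had)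
  have t2 : Tendsto (fun τ : ℍ => heckeDiagMatrix N • τ) atImInfty atImInfty :=
    tendsto_smul_atImInfty (by simp [val_heckeDiagMatrix hN])
  have hupper : ModularForm.discriminant =O[atImInfty]
      fun τ : ℍ => Real.exp (-2 * Real.pi * τ.im) := by
    simpa using CuspFormClass.exp_decay_atImInfty CuspForm.discriminant one_pos
      one_mem_strictPeriods_SL
  have hslash : ∃ c : ℂ, c ≠ 0 ∧
      twistDelta N = fun τ => c * ModularForm.discriminant (U • τ) := by
    refine ⟨((U.det : ℝ) : ℂ) ^ (11 : ℤ) * ((d : ℂ)) ^ (-12 : ℤ), mul_ne_zero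
      (zpow_ne_zero _ (Complex.ofReal_ne_zero.mpr hUdet.ne'))
      (zpow_ne_zero _ (by exact_mod_cast hd.ne')), ?_⟩
    rw [hU]
    funext τ
    rw [ModularForm.slash_apply, abs_of_pos hUdet]
    rw [UpperHalfPlane.σ, if_pos hUdet]
    simp [denom, U]
    ring
  obtain ⟨c, hc, hslash⟩ := hslash
  have hbig : (fun τ : ℍ => Real.exp (-2 * Real.pi * ((a : ℝ) / d * τ.im))) =O[atImInfty]
      fun τ : ℍ => Real.exp (-2 * Real.pi * ((N : ℝ) * τ.im)) := by
    have h1 := exp_isBigO_discriminant.comp_tendsto t1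
    have h2 := hupper.comp_tendsto t2
    simp only [Function.comp_def, hUim, hNim] at h1 h2
    have h3 : (fun τ : ℍ => ModularForm.discriminant (U • τ)) =O[atImInfty]
        fun τ : ℍ => ModularForm.discriminant (heckeDiagMatrix N • τ) := by
      refine (isBigO_const_mul_left_iff hc).mp ?_
      rw [← hslash]
      simp only [twistDelta]
      have : (ModularForm.discriminant ∣[(12 : ℤ)] heckeDiagMatrix N)
          = fun τ => (N : ℂ) ^ ((12 : ℤ) - 1) *
              ModularForm.discriminant (heckeDiagMatrix N • τ) :=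
        funext fun τ => slash_heckeDiagMatrix_apply 12 hN _ τ
      rw [this]
      exact isBigO_const_mul_self _ _ _
    exact (h1.trans h3).trans h2
  rw [Real.isBigO_exp_comp_exp_comp] at hbig
  have htop : Tendsto ((fun τ : ℍ => -2 * Real.pi * ((a : ℝ) / d * τ.im))
      - fun τ : ℍ => -2 * Real.pi * ((N : ℝ) * τ.im)) atImInfty atTop := by
    have hpos : 0 < 2 * Real.pi * ((N : ℝ) - (a : ℝ) / d) := by
      have := sub_pos.mpr hlt; positivity
    refine (tendsto_comap.const_mul_atTop hpos).congr fun τ => ?_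
    simp [Pi.sub_apply]; try ring
  exact absurd hbig (Filter.not_isBoundedUnder_of_tendsto_atTop htop)

theorem bddDenom_twistDelta (hN : N ≠ 0) : BddDenom (qExp (twistDelta N)) := by
  obtain ⟨D, hD, ψ, hψ⟩ := bddDenom_discriminant
  have hQ := isQFun_of_mem coe_discriminant_mem_forms
  have hF := isQFun_of_mem (twistDelta_mem_forms hN)
  have hNC : (N : ℂ) ^ ((12 : ℤ) - 1) = ((N ^ 11 : ℤ) : ℂ) := by push_cast; norm_num
  refine ⟨D, hD, PowerSeries.mk fun n => (N : ℤ) ^ 11 * if N ∣ n then ψ.coeff (n / N) else 0, ?_⟩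
  have hc : ∀ n, (qExp (twistDelta N)).coeff n = (N : ℂ) ^ ((12 : ℤ) - 1) *
      (if N ∣ n then (qExp ModularForm.discriminant).coeff (n / N) else 0) := by
    intro n
    refine (hF.coeff_unique
      (c := fun n => (N : ℂ) ^ ((12 : ℤ) - 1) *
        (if N ∣ n then (qExp ModularForm.discriminant).coeff (n / N) else 0))
      (fun τ => ?_) n).symm
    have hs := hasSum_qExpansion one_pos hQ.periodic hQ.mdiff hQ.bdd (heckeDiagMatrix N • τ)
    have hq : Function.Periodic.qParam 1 (heckeDiagMatrix N • τ : ℍ)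
        = Function.Periodic.qParam 1 τ ^ N := by
      rw [Function.Periodic.qParam, Function.Periodic.qParam, coe_heckeDiagMatrix_smul hN,
        ← Complex.exp_nat_mul]
      congr 1
      ring
    rw [twistDelta, slash_heckeDiagMatrix_apply 12 hN]
    simp only [smul_eq_mul, mul_assoc]
    refine HasSum.mul_left _ ?_
    have hinj : Function.Injective fun m : ℕ => N * m := mul_right_injective₀ hN
    rw [← hinj.hasSum_iff fun m hm => ?_]
    · refine HasSum.congr_fun hs fun m => ?_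
      simp [hq, Nat.mul_div_cancel_left _ (Nat.pos_of_ne_zero hN), pow_mul]
    · rw [if_neg fun ⟨l, hl⟩ => hm ⟨l, hl.symm⟩, zero_mul]
  ext n
  rw [PowerSeries.coeff_smul, hc, smul_eq_mul, PowerSeries.coeff_map, PowerSeries.coeff_mk, hNC]
  split_ifs with hdvd
  · have h := congrArg (PowerSeries.coeff (n / N)) hψ
    simp only [PowerSeries.coeff_smul, smul_eq_mul, PowerSeries.coeff_map, Int.coe_castRingHom] at h
    rw [mul_left_comm, h]
    simp
  · simp

theorem twistDelta_mem_ratForms (hN : N ≠ 0) : twistDelta N ∈ ratForms N 12 :=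
  mem_ratForms_of (twistDelta_mem_forms hN) (bddDenom_twistDelta hN)

end FA.Period
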